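/-
Program C (S55), C8 leaf (Z2-LOC): growth of the local degrees in the cyclotomic tower.
Uniform in `q = p` and `q ≠ p`: finiteness of the roots of unity of `p`-power order in a finite
extension of `ℚ_q` (compactness + separation), then irreducibility of `X ^ (p ^ m) - a`.
helper38.  Mathlib only.
-/
import Mathlib

set_option autoImplicit false
set_option linter.unusedSectionVars false
set_option linter.style.haveILetI false

namespace Fermat.Agent.S55.H38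

open Polynomial IntermediateField

section Sep

variable {L : Type*} [NormedField L] [IsUltrametricDist L]

theorem norm_eq_one_of_pow_eq_one'' {η : L} {n : ℕ} (hn : n ≠ 0) (h : η ^ n = 1) : ‖η‖ = 1 :=
  (pow_eq_one_iff_of_nonneg (norm_nonneg η) hn).mp (by rw [← norm_pow, h, norm_one])

theorem norm_geom_sum_le_one {η : L} (hη : ‖η‖ ≤ 1) (n : ℕ) :
    ‖∑ i ∈ Finset.range n, η ^ i‖ ≤ 1 := by
  refine IsUltrametricDist.norm_sum_le_of_forall_le_of_nonneg zero_le_one (fun i _ => ?_)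
  rw [norm_pow]
  exact pow_le_one₀ (norm_nonneg _) hη

theorem norm_pow_sub_one_le {η : L} (hη : ‖η‖ ≤ 1) (n : ℕ) : ‖η ^ n - 1‖ ≤ ‖η - 1‖ := by
  have h : η ^ n - 1 = (∑ i ∈ Finset.range n, η ^ i) * (η - 1) := (geom_sum_mul η n).symm
  rw [h, norm_mul]
  exact mul_le_of_le_one_left (norm_nonneg _) (norm_geom_sum_le_one hη n)

/-- A nontrivial root of unity of `p`-power order is at least as far from `1` as some nontrivial
`p`-th root of unity. -/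
theorem exists_prime_root_norm_le {p : ℕ} (hp : p.Prime) :
    ∀ (s : ℕ) (η : L), η ^ (p ^ s) = 1 → η ≠ 1 → ∃ ω : L, ω ^ p = 1 ∧ ω ≠ 1 ∧ ‖ω - 1‖ ≤ ‖η - 1‖ := by
  intro s
  induction s with
  | zero =>
    intro η h hne
    rw [pow_zero, pow_one] at h
    exact absurd h hne
  | succ s ih =>
    intro η h hne
    by_cases h1 : η ^ (p ^ s) = 1
    · exact ih η h1 hne
    · refine ⟨η ^ (p ^ s), ?_, h1, ?_⟩
      · rw [← pow_mul, ← pow_succ]; exact h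
      · have hη : ‖η‖ = 1 := norm_eq_one_of_pow_eq_one'' (pow_ne_zero _ hp.ne_zero) h
        exact norm_pow_sub_one_le hη.le _

/-- The nontrivial `p`-th roots of unity stay away from `1`. -/
theorem exists_pos_le_norm_sub_one {p : ℕ} (hp : p.Prime) :
    ∃ δ : ℝ, 0 < δ ∧ ∀ ω : L, ω ^ p = 1 → ω ≠ 1 → δ ≤ ‖ω - 1‖ := by
  classical
  have hfin : {ω : L | ω ^ p = 1}.Finite := by
    have := (Polynomial.nthRootsFinset p (1 : L)).finite_toSet
    refine this.subset (fun ω hω => ?_)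
    exact (Polynomial.mem_nthRootsFinset hp.pos (1 : L)).mpr hω
  by_cases hne : ∃ ω : L, ω ^ p = 1 ∧ ω ≠ 1
  · have hfin' : {ω : L | ω ^ p = 1 ∧ ω ≠ 1}.Finite := hfin.subset (fun ω hω => hω.1)
    obtain ⟨ω0, hω0, hmin⟩ := hfin'.toFinset.exists_min_image (fun ω => ‖ω - 1‖)
      (by obtain ⟨ω, hω⟩ := hne; exact ⟨ω, hfin'.mem_toFinset.mpr hω⟩)
    have hω0' := hfin'.mem_toFinset.mp hω0
    refine ⟨‖ω0 - 1‖, norm_pos_iff.mpr (sub_ne_zero.mpr hω0'.2), fun ω h1 h2 => ?_⟩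
    exact hmin ω (hfin'.mem_toFinset.mpr ⟨h1, h2⟩)
  · exact ⟨1, one_pos, fun ω h1 h2 => absurd ⟨ω, h1, h2⟩ hne⟩

/-- Distinct roots of unity of `p`-power order are uniformly separated. -/
theorem exists_pos_le_norm_sub {p : ℕ} (hp : p.Prime) :
    ∃ δ : ℝ, 0 < δ ∧ ∀ η η' : L, (∃ s : ℕ, η ^ (p ^ s) = 1) → (∃ s : ℕ, η' ^ (p ^ s) = 1) →
      η ≠ η' → δ ≤ ‖η - η'‖ := by
  obtain ⟨δ, hδ, hsep⟩ := exists_pos_le_norm_sub_one (L := L) hp
  refine ⟨δ, hδ, ?_⟩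
  rintro η η' ⟨s, hs⟩ ⟨s', hs'⟩ hne
  have hη' : ‖η'‖ = 1 := norm_eq_one_of_pow_eq_one'' (pow_ne_zero _ hp.ne_zero) hs'
  have hη'0 : η' ≠ 0 := by
    intro h
    rw [h, norm_zero] at hη'
    exact zero_ne_one hη'
  have hρ : (η / η') ^ (p ^ (s + s')) = 1 := by
    rw [div_pow, pow_add, pow_mul, hs, one_pow, mul_comm, pow_mul, hs', one_pow, div_one]
  have hρ1 : η / η' ≠ 1 := by
    intro h
    exact hne ((div_eq_one_iff_eq hη'0).mp h)
  obtain ⟨ω, hω, hω1, hle⟩ := exists_prime_root_norm_le hp (s + s') (η / η') hρ hρ1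
  have e : η - η' = η' * (η / η' - 1) := by field_simp
  rw [e, norm_mul, hη', one_mul]
  exact (hsep ω hω hω1).trans hle

/-- In a proper ultrametric normed field there are only finitely many roots of unity of
`p`-power order. -/
theorem finite_pPow_roots {p : ℕ} (hp : p.Prime) [ProperSpace L] :
    {η : L | ∃ s : ℕ, η ^ (p ^ s) = 1}.Finite := by
  obtain ⟨δ, hδ, hsep⟩ := exists_pos_le_norm_sub (L := L) hp
  have htb := (isCompact_closedBall (0 : L) 1).totallyBounded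
  obtain ⟨t, htfin, hcover⟩ := Metric.totallyBounded_iff.mp htb (δ / 2) (by positivity)
  have hsub : {η : L | ∃ s : ℕ, η ^ (p ^ s) = 1} ⊆
      ⋃ y ∈ t, ({η : L | ∃ s : ℕ, η ^ (p ^ s) = 1} ∩ Metric.ball y (δ / 2)) := by
    rintro η ⟨s, hs⟩
    have hη : ‖η‖ = 1 := norm_eq_one_of_pow_eq_one'' (pow_ne_zero _ hp.ne_zero) hs
    have hmem : η ∈ Metric.closedBall (0 : L) 1 := by
      rw [mem_closedBall_zero_iff]; exact hη.le
    obtain ⟨y, hy, hηy⟩ := Set.mem_iUnion₂.mp (hcover hmem)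
    exact Set.mem_biUnion hy ⟨⟨s, hs⟩, hηy⟩
  refine (htfin.biUnion (fun y _ => ?_)).subset hsub
  apply Set.Subsingleton.finite
  rintro a ⟨ha, hay⟩ b ⟨hb, hby⟩
  by_contra hne
  have h1 := hsep a b ha hb hne
  have h2 : dist a b < δ := by
    calc dist a b ≤ dist a y + dist b y := dist_triangle_right a b y
      _ < δ / 2 + δ / 2 := add_lt_add (Metric.mem_ball.mp hay) (Metric.mem_ball.mp hby)
      _ = δ := by ring
  rw [dist_eq_norm] at h2
  linarith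

end Sep


section Cyc

variable (p q : ℕ) [Fact p.Prime] [Fact q.Prime]

/-- The orders of the roots of unity of `p`-power order in a finite extension of `ℚ_q` are
bounded. -/
theorem exists_bound_primitiveRoot (F : IntermediateField ℚ_[q] (PadicAlgCl q))
    [FiniteDimensional ℚ_[q] F] :
    ∃ B : ℕ, ∀ (s : ℕ) (η : F), IsPrimitiveRoot η (p ^ s) → s ≤ B := by
  haveI : ProperSpace F := FiniteDimensional.proper ℚ_[q] F
  have hfin := finite_pPow_roots (L := F) (Fact.out : p.Prime)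
  have hfin' := hfin.image (fun η : F => Nat.log p (orderOf η))
  obtain ⟨B, hB⟩ := hfin'.bddAbove
  refine ⟨B, fun s η hη => hB ⟨η, ⟨s, hη.pow_eq_one⟩, ?_⟩⟩
  show Nat.log p (orderOf η) = s
  rw [← hη.eq_orderOf, Nat.log_pow (Fact.out : p.Prime).one_lt]

/-- The largest `s` such that a finite extension `F` of `ℚ_q` (containing `μ_p`) contains a
primitive `p ^ s`-th root of unity. -/
theorem exists_max_primitiveRoot (F : IntermediateField ℚ_[q] (PadicAlgCl q))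
    [FiniteDimensional ℚ_[q] F] (h1 : ∃ η : F, IsPrimitiveRoot η p) :
    ∃ s0 : ℕ, 1 ≤ s0 ∧ (∃ η : F, IsPrimitiveRoot η (p ^ s0)) ∧
      ∀ (s : ℕ) (η : F), IsPrimitiveRoot η (p ^ s) → s ≤ s0 := by
  classical
  obtain ⟨B, hB⟩ := exists_bound_primitiveRoot p q F
  have hP1 : ∃ η : F, IsPrimitiveRoot η (p ^ 1) := by
    obtain ⟨η, hη⟩ := h1
    exact ⟨η, by rwa [pow_one]⟩
  have h1B : 1 ≤ B := by
    obtain ⟨η, hη⟩ := hP1
    exact hB 1 η hη
  refine ⟨Nat.findGreatest (fun s => ∃ η : F, IsPrimitiveRoot η (p ^ s)) B,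
    Nat.le_findGreatest h1B hP1,
    Nat.findGreatest_spec (P := fun s => ∃ η : F, IsPrimitiveRoot η (p ^ s)) h1B hP1,
    fun s η hη => Nat.le_findGreatest (hB s η hη) ⟨η, hη⟩⟩

/-- A primitive root of unity of maximal `p`-power order is not a `p`-th power. -/
theorem pow_ne_of_max_primitiveRoot {F : Type*} [Field F] {p s0 : ℕ} (hp : p.Prime)
    (hs0 : 1 ≤ s0) (hmax : ∀ (s : ℕ) (η : F), IsPrimitiveRoot η (p ^ s) → s ≤ s0)
    {a : F} (ha : IsPrimitiveRoot a (p ^ s0)) (b : F) : b ^ p ≠ a := by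
  intro hb
  have hb1 : b ^ (p ^ (s0 + 1)) = 1 := by
    rw [pow_succ', pow_mul, hb, ha.pow_eq_one]
  obtain ⟨j, -, hord⟩ := (Nat.dvd_prime_pow hp).mp (orderOf_dvd_of_pow_eq_one hb1)
  have hprim : IsPrimitiveRoot b (p ^ j) := hord ▸ IsPrimitiveRoot.orderOf b
  have hjle := hmax j b hprim
  have h2 : a ^ (p ^ (s0 - 1)) = 1 := by
    rw [← hb, ← pow_mul, ← pow_succ', Nat.sub_add_cancel hs0]
    obtain ⟨d, rfl⟩ := Nat.exists_eq_add_of_le hjle
    rw [pow_add, pow_mul, hprim.pow_eq_one, one_pow]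
  have h3 := ha.dvd_of_pow_eq_one _ h2
  have h4 := Nat.le_of_dvd (pow_pos hp.pos _) h3
  have h5 : p ^ (s0 - 1) < p ^ s0 := Nat.pow_lt_pow_right hp.one_lt (by omega)
  omega

/-- (Z2-LOC) Growth of the local degrees in the cyclotomic `ℤ_p`-tower, uniformly in
`q = p` and `q ≠ p`: the degree of `ℚ_q(ζ_{p^r})` over `ℚ_q` is divisible by `p ^ (r - c)`. -/
theorem exists_bound_finrank_adjoin_primitiveRoot (hp2 : p ≠ 2) :
    ∃ c : ℕ, ∀ (r : ℕ) (ζ : PadicAlgCl q), IsPrimitiveRoot ζ (p ^ r) →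
      p ^ r ∣ p ^ c * Module.finrank ℚ_[q] ℚ_[q]⟮ζ⟯ := by
  have hp : p.Prime := Fact.out
  haveI : NeZero (p : PadicAlgCl q) := ⟨by exact_mod_cast hp.ne_zero⟩
  haveI : NeZero p := ⟨hp.ne_zero⟩
  obtain ⟨ω, hω⟩ := HasEnoughRootsOfUnity.exists_primitiveRoot (PadicAlgCl q) p
  have hintω : IsIntegral ℚ_[q] ω := Algebra.IsIntegral.isIntegral ω
  haveI : FiniteDimensional ℚ_[q] ℚ_[q]⟮ω⟯ := adjoin.finiteDimensional hintω
  have hωF : ω ∈ ℚ_[q]⟮ω⟯ := mem_adjoin_simple_self ℚ_[q] ω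
  obtain ⟨s0, hs0, ⟨η0, hη0⟩, hmax⟩ := exists_max_primitiveRoot p q ℚ_[q]⟮ω⟯
    ⟨⟨ω, hωF⟩, (IsPrimitiveRoot.coe_submonoidClass_iff).mp hω⟩
  refine ⟨s0, fun r ζ hζ => ?_⟩
  rcases lt_or_ge r s0 with hr | hr
  · exact Dvd.dvd.mul_right (pow_dvd_pow p hr.le) _
  · obtain ⟨m, rfl⟩ := Nat.exists_eq_add_of_le hr
    have ha' : IsPrimitiveRoot (ζ ^ (p ^ m)) (p ^ s0) :=
      hζ.pow (pow_pos hp.pos _) (by rw [pow_add, mul_comm])
    have hη0' : IsPrimitiveRoot (η0 : PadicAlgCl q) (p ^ s0) :=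
      IsPrimitiveRoot.coe_submonoidClass_iff.mpr hη0
    haveI : NeZero (p ^ s0) := ⟨pow_ne_zero _ hp.ne_zero⟩
    obtain ⟨k, -, hk⟩ := hη0'.eq_pow_of_pow_eq_one ha'.pow_eq_one
    have haΩ : ((η0 ^ k : ℚ_[q]⟮ω⟯) : PadicAlgCl q) = ζ ^ (p ^ m) := by
      rw [← hk]; rfl
    have ha : IsPrimitiveRoot (η0 ^ k) (p ^ s0) :=
      IsPrimitiveRoot.coe_submonoidClass_iff.mp (by rw [haΩ]; exact ha')
    have hnot : ∀ b : ℚ_[q]⟮ω⟯, b ^ p ≠ η0 ^ k := pow_ne_of_max_primitiveRoot hp hs0 hmax ha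
    have hirr : Irreducible (X ^ (p ^ m) - C (η0 ^ k) : (ℚ_[q]⟮ω⟯)[X]) :=
      X_pow_sub_C_irreducible_of_prime_pow hp hp2 m hnot
    have hroot : aeval ζ (X ^ (p ^ m) - C (η0 ^ k) : (ℚ_[q]⟮ω⟯)[X]) = 0 := by
      rw [map_sub, map_pow, aeval_X, aeval_C, sub_eq_zero]
      exact haΩ.symm
    have hmonic : (X ^ (p ^ m) - C (η0 ^ k) : (ℚ_[q]⟮ω⟯)[X]).Monic :=
      monic_X_pow_sub_C _ (pow_ne_zero _ hp.ne_zero)
    have hmin : minpoly ℚ_[q]⟮ω⟯ ζ = X ^ (p ^ m) - C (η0 ^ k) :=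
      (minpoly.eq_of_irreducible_of_monic hirr hroot hmonic).symm
    haveI : Algebra.IsIntegral ℚ_[q]⟮ω⟯ (PadicAlgCl q) := Algebra.IsIntegral.tower_top ℚ_[q]
    have hdeg : Module.finrank ℚ_[q]⟮ω⟯ (ℚ_[q]⟮ω⟯)⟮ζ⟯ = p ^ m := by
      rw [adjoin.finrank (Algebra.IsIntegral.isIntegral ζ), hmin, natDegree_X_pow_sub_C]
    have hωζ : ω ∈ ℚ_[q]⟮ζ⟯ := by
      have h1 : IsPrimitiveRoot (ζ ^ (p ^ (s0 + m - 1))) p :=
        hζ.pow (pow_pos hp.pos _) (by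
          rw [← pow_succ]
          congr 1
          omega)
      obtain ⟨j, -, hj⟩ := h1.eq_pow_of_pow_eq_one hω.pow_eq_one
      rw [← hj]
      exact pow_mem (pow_mem (mem_adjoin_simple_self ℚ_[q] ζ) _) _
    have htower : ((ℚ_[q]⟮ω⟯)⟮ζ⟯).restrictScalars ℚ_[q] = ℚ_[q]⟮ζ⟯ := by
      have h1 : ((ℚ_[q]⟮ω⟯)⟮ζ⟯).restrictScalars ℚ_[q] = adjoin ℚ_[q] ({ω} ∪ {ζ}) :=
        adjoin_adjoin_left ℚ_[q] {ω} {ζ}
      rw [h1]
      apply le_antisymm
      · rw [adjoin_le_iff]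
        rintro x (hx | hx)
        · rw [Set.mem_singleton_iff] at hx
          rw [hx]; exact hωζ
        · rw [Set.mem_singleton_iff] at hx
          rw [hx]; exact mem_adjoin_simple_self ℚ_[q] ζ
      · exact adjoin.mono _ _ _ Set.subset_union_right
    have hfr : Module.finrank ℚ_[q] ℚ_[q]⟮ζ⟯ = Module.finrank ℚ_[q] ℚ_[q]⟮ω⟯ * p ^ m := by
      rw [← htower, ← hdeg]
      exact (Module.finrank_mul_finrank ℚ_[q] ℚ_[q]⟮ω⟯ (ℚ_[q]⟮ω⟯)⟮ζ⟯).symm
    rw [hfr, pow_add]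
    exact ⟨Module.finrank ℚ_[q] ℚ_[q]⟮ω⟯, by ring⟩

end Cyc

end Fermat.Agent.S55.H38
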