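/-
Program C (S55), package C8, leaf (CYCLO-EXISTS) = tasks 503: `H29.CycloLayerExistsStatement p`.

For a finite set `T` of finite places of a number field `k` and `c : ℕ` there are a squarefree
`m`, prime to `p` and to the residue characteristics of `T`, and a cyclic layer `E / k` of
`p`-power degree inside `F = k(ζ_m)` whose local degrees at the places of `T` are divisible by
`p ^ c`.

Inputs (all landed): helper15's Mathlib-only core `H15.exists_modulus_cyclic_layer_in`,
helper28's congruence lemma `H28.aeval_pow_resCard_eq_zero` (a conjugate of a root of unity of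
order prime to `q` raised to the power `#k_v` is again a conjugate), helper20's
`H20.card_decompGroup` (`#D_w = [K_w : k_v]`), helper88's embedding model.

helper38.
-/
import Mathlib
import Fermat.Agent.S55.H29.C8Rec
import Fermat.Agent.S55.H15.CycloSplit
import Fermat.Agent.S55.H20.Decomp
import Fermat.Agent.S55.H5.AFrob
import Fermat.Agent.S55.H28.Unram

set_option autoImplicit false
set_option linter.unusedSectionVars false
set_option linter.style.haveILetI false

open scoped IntermediateField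
open Polynomial

noncomputable section

namespace Fermat.Agent.S55.H38

open Fermat.Agent.S55.H88

attribute [local instance] factOfPrimes

section Local

variable (q : ℕ) [Fact q.Prime]

/-- For a finite extension `Kv` of `ℚ_q` inside `Ω` and an `m`-th root of unity `α` with `q ∤ m`
there is an automorphism of `Ω` over `Kv` raising `α` to the power `#k_v`. -/
theorem exists_aut_pow_resCard (Kv : IntermediateField ℚ_[q] (PadicAlgCl q))
    [FiniteDimensional ℚ_[q] Kv] {m : ℕ} (hm : ¬ q ∣ m) {α : PadicAlgCl q} (hα : α ^ m = 1) :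
    ∃ G : PadicAlgCl q ≃ₐ[Kv] PadicAlgCl q, G α = α ^ H66.resCard q Kv := by
  have hnorm : ‖(m : PadicAlgCl q)‖ = 1 := H5.norm_natCast_eq_one q hm
  have hroot : aeval (α ^ H66.resCard q Kv) (minpoly Kv α) = 0 :=
    H28.aeval_pow_resCard_eq_zero q Kv hnorm hα (minpoly.aeval Kv α)
  haveI : Algebra.IsAlgebraic Kv (PadicAlgCl q) := Algebra.IsAlgebraic.tower_top (K := ℚ_[q]) Kv
  haveI : IsAlgClosure Kv (PadicAlgCl q) := ⟨inferInstance, inferInstance⟩
  exact minpoly.exists_algEquiv_of_root' (Algebra.IsAlgebraic.isAlgebraic α) hroot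

end Local

section Global

variable {k : Type} [Field k] [NumberField k]

/-- The residue field of the completion at a finite place has `t ^ f` elements, `t` the residue
characteristic. -/
theorem exists_resCard_place (v : FinPlace k) :
    ∃ f : ℕ, f ≠ 0 ∧
      H66.resCard (v.1 : ℕ) (locField (v.1 : ℕ) v.emb) = (v.1 : ℕ) ^ f :=
  H28.exists_resCard_eq (v.1 : ℕ) (locField (v.1 : ℕ) v.emb)

/-- A Frobenius element at `v` in a normal extension `F / k` containing a primitive `m`-th root
of unity, `v ∤ m`: an element of the decomposition group of the chosen place above `v` acting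
on the `m`-th roots of unity by `ξ ↦ ξ ^ #k_v`. -/
theorem exists_frob_global (v : FinPlace k) (F : Type) [Field F] [NumberField F] [Algebra k F]
    [Normal k F] {m : ℕ} (hm : ¬ (v.1 : ℕ) ∣ m) {ζ : F} (hζ : IsPrimitiveRoot ζ m) :
    ∃ g : F ≃ₐ[k] F, g ∈ decompGroup (v.1 : ℕ) k (v.ext F) ∧
      ∀ ξ : F, ξ ^ m = 1 →
        g ξ = ξ ^ H66.resCard (v.1 : ℕ) (locField (v.1 : ℕ) v.emb) := by
  have hm0 : m ≠ 0 := fun h0 => hm (h0 ▸ dvd_zero _)
  haveI : NeZero m := ⟨hm0⟩
  have hα : (v.ext F ζ) ^ m = 1 := by rw [← map_pow, hζ.pow_eq_one, map_one]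
  obtain ⟨G0, hG0⟩ := exists_aut_pow_resCard (v.1 : ℕ) (locField (v.1 : ℕ) v.emb) hm hα
  have hfix : ∀ y : k, G0 (v.ext F (algebraMap k F y)) = v.ext F (algebraMap k F y) := by
    intro y
    have hy : v.ext F (algebraMap k F y) = v.emb y := RingHom.congr_fun (FinPlace.ext_comp F v) y
    have hmem : v.emb y ∈ locField (v.1 : ℕ) v.emb :=
      IntermediateField.subset_adjoin _ _ ⟨y, rfl⟩
    rw [hy]
    exact G0.commutes ⟨v.emb y, hmem⟩
  have h : (v.ext F).comp (algebraMap k F) =
      (((G0.restrictScalars ℚ_[(v.1 : ℕ)] : PadicAlgCl (v.1 : ℕ) ≃ₐ[ℚ_[(v.1 : ℕ)]]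
        PadicAlgCl (v.1 : ℕ)) : PadicAlgCl (v.1 : ℕ) →+* PadicAlgCl (v.1 : ℕ)).comp
          (v.ext F)).comp (algebraMap k F) :=
    RingHom.ext fun y => (hfix y).symm
  obtain ⟨g, hg⟩ := exists_algEquiv_comp_eq (v.1 : ℕ) (v.ext F) _ h
  have hg' : ∀ x : F, G0 (v.ext F x) = v.ext F (g x) := fun x => RingHom.congr_fun hg x
  refine ⟨g, ⟨G0.restrictScalars ℚ_[(v.1 : ℕ)], hg.symm⟩, fun ξ hξ => ?_⟩
  obtain ⟨j, -, rfl⟩ := hζ.eq_pow_of_pow_eq_one hξ
  apply (v.ext F).injective
  rw [← hg', map_pow, map_pow, hG0, map_pow, map_pow, ← pow_mul, ← pow_mul, mul_comm]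

/-- The order of the restriction to `E` of an element of a decomposition group above `v`
divides the local degree of `E / k` at `v`. -/
theorem orderOf_restrict_dvd_locDegAt (v : FinPlace k) (F : Type) [Field F] [NumberField F]
    [Algebra k F] [Normal k F] (E : IntermediateField k F) [IsGalois k E]
    (g : F ≃ₐ[k] F) (hg : g ∈ decompGroup (v.1 : ℕ) k (v.ext F)) :
    orderOf (AlgEquiv.restrictNormalHom E g) ∣ H29.locDegAt k E v := by
  obtain ⟨G, hG⟩ := hg
  have hG' : ∀ x : F, v.ext F (g x) = G (v.ext F x) := fun x => RingHom.congr_fun hG x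
  -- the restriction of the chosen embedding of `F` to `E`
  have h1 : ∀ x : E, ((v.ext F).comp (algebraMap E F)) (AlgEquiv.restrictNormalHom E g x) =
      G (((v.ext F).comp (algebraMap E F)) x) := by
    intro x
    show v.ext F (algebraMap E F (AlgEquiv.restrictNormalHom E g x)) =
      G (v.ext F (algebraMap E F x))
    rw [← hG']
    congr 1
    exact AlgEquiv.restrictNormalHom_apply E g x
  have h2 : (v.ext E).comp (algebraMap k E) =
      ((v.ext F).comp (algebraMap E F)).comp (algebraMap k E) := by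
    rw [FinPlace.ext_comp]
    refine RingHom.ext fun y => ?_
    show v.emb y = v.ext F (algebraMap E F (algebraMap k E y))
    rw [← IsScalarTower.algebraMap_apply k E F]
    exact (RingHom.congr_fun (FinPlace.ext_comp F v) y).symm
  obtain ⟨σ, hσ⟩ := exists_algEquiv_comp_eq (v.1 : ℕ) (v.ext E) _ h2
  have hσ' : ∀ x : E, ((v.ext F).comp (algebraMap E F)) x = v.ext E (σ x) :=
    fun x => RingHom.congr_fun hσ x
  have hmem : σ * AlgEquiv.restrictNormalHom E g * σ⁻¹ ∈ decompGroup (v.1 : ℕ) k (v.ext E) := by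
    refine ⟨G, RingHom.ext fun y => ?_⟩
    show v.ext E (σ (AlgEquiv.restrictNormalHom E g (σ⁻¹ y))) = G (v.ext E y)
    rw [← hσ', h1, hσ']
    congr 2
    exact σ.apply_symm_apply y
  have hcard : Nat.card (decompGroup (v.1 : ℕ) k (v.ext E)) = H29.locDegAt k E v :=
    H20.card_decompGroup (v.1 : ℕ) k (v.ext E)
  have hord : orderOf (σ * AlgEquiv.restrictNormalHom E g * σ⁻¹) =
      orderOf (AlgEquiv.restrictNormalHom E g) :=
    (MulAut.conj σ).orderOf_eq (AlgEquiv.restrictNormalHom E g)
  rw [← hord, ← hcard]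
  exact Subgroup.orderOf_dvd_natCard _ hmem

end Global

/-- **Leaf (CYCLO-EXISTS)**, verbatim. -/
theorem cycloLayerExists (p : ℕ) : H29.CycloLayerExistsStatement p := by
  intro hp hp2 k _ _ T c
  classical
  have hex : ∀ i : Fin T.card, ∃ f : ℕ, f ≠ 0 ∧
      H66.resCard (((T.equivFin.symm i : T) : FinPlace k).1 : ℕ)
        (locField (((T.equivFin.symm i : T) : FinPlace k).1 : ℕ)
          ((T.equivFin.symm i : T) : FinPlace k).emb) =
        (((T.equivFin.symm i : T) : FinPlace k).1 : ℕ) ^ f :=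
    fun i => exists_resCard_place ((T.equivFin.symm i : T) : FinPlace k)
  choose f hf0 hf using hex
  have ht : ∀ i : Fin T.card, 2 ≤ (((T.equivFin.symm i : T) : FinPlace k).1 : ℕ) :=
    fun i => ((T.equivFin.symm i : T) : FinPlace k).1.2.two_le
  obtain ⟨m, hsq, hmp, -, hmt, hm⟩ := H15.exists_modulus_cyclic_layer_in p hp hp2 T.card
    (fun i => (((T.equivFin.symm i : T) : FinPlace k).1 : ℕ)) f ht hf0 0 c
  have hm0 : m ≠ 0 := hsq.ne_zero
  haveI : NeZero m := ⟨hm0⟩
  have hζ := IsCyclotomicExtension.zeta_spec m k (CyclotomicField m k)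
  haveI : IsGalois k (CyclotomicField m k) := IsCyclotomicExtension.isGalois {m} k _
  have hnd : ∀ i : Fin T.card, ¬ (((T.equivFin.symm i : T) : FinPlace k).1 : ℕ) ∣ m := by
    intro i hdvd
    have h1 : (((T.equivFin.symm i : T) : FinPlace k).1 : ℕ) ∣
        Nat.gcd m (((T.equivFin.symm i : T) : FinPlace k).1 : ℕ) := Nat.dvd_gcd hdvd dvd_rfl
    have h2 : Nat.gcd m (((T.equivFin.symm i : T) : FinPlace k).1 : ℕ) = 1 := hmt i
    rw [h2] at h1
    have h3 := Nat.le_of_dvd one_pos h1
    have h4 := ht i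
    omega
  have hg : ∀ i : Fin T.card, ∃ g : CyclotomicField m k ≃ₐ[k] CyclotomicField m k,
      g ∈ decompGroup (((T.equivFin.symm i : T) : FinPlace k).1 : ℕ) k
        (((T.equivFin.symm i : T) : FinPlace k).ext (CyclotomicField m k)) ∧
      ∀ ξ : CyclotomicField m k, ξ ^ m = 1 →
        g ξ = ξ ^ ((((T.equivFin.symm i : T) : FinPlace k).1 : ℕ) ^ f i) := by
    intro i
    obtain ⟨g, hgD, hgξ⟩ := exists_frob_global ((T.equivFin.symm i : T) : FinPlace k)
      (CyclotomicField m k) (hnd i) hζ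
    exact ⟨g, hgD, fun ξ hξ => by rw [hgξ ξ hξ, hf i]⟩
  choose g hgD hgξ using hg
  obtain ⟨E, hEgal, n, -, hEcyc, hEdeg, hEord⟩ := hm k (CyclotomicField m k)
    (IsCyclotomicExtension.zeta m k (CyclotomicField m k)) hζ g hgξ
  refine ⟨m, E, CyclotomicField m k, inferInstance, inferInstance, inferInstance, inferInstance,
    inferInstance, inferInstance, inferInstance, inferInstance, hEgal, hEcyc, inferInstance,
    hsq, ?_, ⟨n, hEdeg⟩, ?_, ?_⟩
  · intro hpm
    have h1 : p ∣ Nat.gcd m p := Nat.dvd_gcd hpm dvd_rfl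
    have h2 : Nat.gcd m p = 1 := hmp
    rw [h2] at h1
    exact hp.one_lt.ne' (Nat.dvd_one.mp h1)
  · intro v hv
    have h1 := hnd (T.equivFin ⟨v, hv⟩)
    rw [Equiv.symm_apply_apply] at h1
    exact h1
  · intro v hv
    have h1 := hEord (T.equivFin ⟨v, hv⟩)
    have h2 := hgD (T.equivFin ⟨v, hv⟩)
    rw [Equiv.symm_apply_apply] at h2
    exact h1.trans (orderOf_restrict_dvd_locDegAt v (CyclotomicField m k) E _ h2)

end Fermat.Agent.S55.H38
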