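/-
Program C (S55), package C3, leaf L3 (helper38): abstract residue-field Galois theory for a finite
group acting on a commutative ring with a stable maximal ideal of finite residue field.

Pure algebra (Mathlib only).  `G` finite acting on `B`, `A → B` with `Algebra.IsInvariant A B G`,
`Q` a `G`-stable maximal ideal of `B` with finite residue field, `P = Q ∩ A`.
-/
import Mathlib

set_option autoImplicit false
set_option linter.unusedSectionVars false
set_option linter.style.haveILetI false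

open scoped Pointwise

namespace Fermat.Agent.S55.H38

section ResidueGalois

/-- The action of `G` on the residue field, when `Q` is `G`-stable. -/
noncomputable def resAut {A B : Type*} [CommRing A] [CommRing B] [Algebra A B]
    (G : Type*) [Group G] [MulSemiringAction G B] [SMulCommClass G A B]
    (P : Ideal A) (Q : Ideal B) [Q.LiesOver P] (hstab : ∀ g : G, g • Q = Q) :
    G →* ((B ⧸ Q) ≃ₐ[A ⧸ P] (B ⧸ Q)) :=
  (Ideal.Quotient.stabilizerHom Q P G).comp
    { toFun := fun g => ⟨g, hstab g⟩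
      map_one' := rfl
      map_mul' := fun _ _ => rfl }

theorem resAut_mk {A B : Type*} [CommRing A] [CommRing B] [Algebra A B]
    (G : Type*) [Group G] [MulSemiringAction G B] [SMulCommClass G A B]
    (P : Ideal A) (Q : Ideal B) [Q.LiesOver P] (hstab : ∀ g : G, g • Q = Q) (g : G) (b : B) :
    resAut G P Q hstab g (Ideal.Quotient.mk Q b) = Ideal.Quotient.mk Q (g • b) := rfl

theorem resAut_surjective {A B : Type*} [CommRing A] [CommRing B] [Algebra A B]
    (G : Type*) [Group G] [Finite G] [MulSemiringAction G B] [SMulCommClass G A B]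
    [Algebra.IsInvariant A B G]
    (P : Ideal A) (Q : Ideal B) [Q.IsPrime] [Q.LiesOver P] (hstab : ∀ g : G, g • Q = Q) :
    Function.Surjective (resAut G P Q hstab) := by
  intro τ
  obtain ⟨g, hg⟩ := Ideal.Quotient.stabilizerHom_surjective G P Q τ
  exact ⟨g.1, hg⟩

theorem isMaximal_under {A B : Type*} [CommRing A] [CommRing B] [Algebra A B]
    (G : Type*) [Group G] [Finite G] [MulSemiringAction G B]
    [Algebra.IsInvariant A B G]
    (P : Ideal A) (Q : Ideal B) [Q.IsMaximal] [Q.LiesOver P] : P.IsMaximal := by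
  have : Algebra.IsIntegral A B := Algebra.IsInvariant.isIntegral A B G
  exact Ideal.over_def Q P ▸ Ideal.IsMaximal.under A Q

/-- (A1) If `G` acts trivially on the residue field, every residue class has a representative
in `A`. -/
theorem exists_sub_mem_of_trivial {A B : Type*} [CommRing A] [CommRing B] [Algebra A B]
    (G : Type*) [Group G] [Finite G] [MulSemiringAction G B] [SMulCommClass G A B]
    [Algebra.IsInvariant A B G]
    (P : Ideal A) (Q : Ideal B) [Q.IsMaximal] [Q.LiesOver P] [Finite (B ⧸ Q)]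
    (hstab : ∀ g : G, g • Q = Q)
    (htriv : ∀ (g : G) (b : B), g • b - b ∈ Q) (b : B) :
    ∃ a : A, b - algebraMap A B a ∈ Q := by
  haveI : P.IsMaximal := isMaximal_under G P Q
  letI : Field (A ⧸ P) := Ideal.Quotient.field P
  letI : Field (B ⧸ Q) := Ideal.Quotient.field Q
  have hsub : ∀ τ : (B ⧸ Q) ≃ₐ[A ⧸ P] (B ⧸ Q), τ = 1 := by
    intro τ
    obtain ⟨g, rfl⟩ := resAut_surjective G P Q hstab τ
    ext x
    obtain ⟨b, rfl⟩ := Ideal.Quotient.mk_surjective x
    rw [resAut_mk]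
    exact (Ideal.Quotient.eq).mpr (htriv g b)
  have hcard : Nat.card ((B ⧸ Q) ≃ₐ[A ⧸ P] (B ⧸ Q)) = 1 := by
    rw [Nat.card_eq_one_iff_unique]
    exact ⟨⟨fun a b => (hsub a).trans (hsub b).symm⟩, ⟨1⟩⟩
  have hfr : Module.finrank (A ⧸ P) (B ⧸ Q) = 1 := by
    rw [← IsGalois.card_aut_eq_finrank, hcard]
  have hbt := Subalgebra.bot_eq_top_iff_finrank_eq_one.mpr hfr
  have hmem : Ideal.Quotient.mk Q b ∈ (⊥ : Subalgebra (A ⧸ P) (B ⧸ Q)) := by
    rw [hbt]; exact Algebra.mem_top
  obtain ⟨a', ha'⟩ := Algebra.mem_bot.mp hmem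
  obtain ⟨a, rfl⟩ := Ideal.Quotient.mk_surjective a'
  refine ⟨a, ?_⟩
  rw [← Ideal.Quotient.eq]
  exact ha'.symm

/-- (A2) Residue classes fixed by `G` have a representative in `A`. -/
theorem exists_sub_mem_of_fixed {A B : Type*} [CommRing A] [CommRing B] [Algebra A B]
    (G : Type*) [Group G] [Finite G] [MulSemiringAction G B] [SMulCommClass G A B]
    [Algebra.IsInvariant A B G]
    (P : Ideal A) (Q : Ideal B) [Q.IsMaximal] [Q.LiesOver P] [Finite (B ⧸ Q)]
    (hstab : ∀ g : G, g • Q = Q) (b : B) (hb : ∀ g : G, g • b - b ∈ Q) :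
    ∃ a : A, b - algebraMap A B a ∈ Q := by
  haveI : P.IsMaximal := isMaximal_under G P Q
  letI : Field (A ⧸ P) := Ideal.Quotient.field P
  letI : Field (B ⧸ Q) := Ideal.Quotient.field Q
  have hmem : Ideal.Quotient.mk Q b ∈ (⊥ : IntermediateField (A ⧸ P) (B ⧸ Q)) := by
    rw [IsGalois.mem_bot_iff_fixed]
    intro τ
    obtain ⟨g, rfl⟩ := resAut_surjective G P Q hstab τ
    rw [resAut_mk]
    exact (Ideal.Quotient.eq).mpr (hb g)
  obtain ⟨a', ha'⟩ := IntermediateField.mem_bot.mp hmem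
  obtain ⟨a, rfl⟩ := Ideal.Quotient.mk_surjective a'
  refine ⟨a, ?_⟩
  rw [← Ideal.Quotient.eq]
  exact ha'.symm

/-- (A3) If the inertia group is trivial, `G` is the Galois group of the residue extension. -/
theorem resAut_bijective {A B : Type*} [CommRing A] [CommRing B] [Algebra A B]
    (G : Type*) [Group G] [Finite G] [MulSemiringAction G B] [SMulCommClass G A B]
    [Algebra.IsInvariant A B G]
    (P : Ideal A) (Q : Ideal B) [Q.IsPrime] [Q.LiesOver P]
    (hstab : ∀ g : G, g • Q = Q)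
    (hinert : ∀ g : G, (∀ b : B, g • b - b ∈ Q) → g = 1) :
    Function.Bijective (resAut G P Q hstab) := by
  refine ⟨?_, resAut_surjective G P Q hstab⟩
  rw [injective_iff_map_eq_one]
  intro g hg
  apply hinert
  intro b
  have h1 : resAut G P Q hstab g (Ideal.Quotient.mk Q b) = Ideal.Quotient.mk Q b := by
    rw [hg]; rfl
  rw [resAut_mk] at h1
  exact (Ideal.Quotient.eq).mp h1

/-- (A4) The Frobenius element: it generates `G` when the inertia group is trivial. -/
theorem exists_frobenius {A B : Type*} [CommRing A] [CommRing B] [Algebra A B]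
    (G : Type*) [Group G] [Finite G] [MulSemiringAction G B] [SMulCommClass G A B]
    [Algebra.IsInvariant A B G]
    (P : Ideal A) (Q : Ideal B) [Q.IsMaximal] [Q.LiesOver P] [Finite (B ⧸ Q)]
    (hstab : ∀ g : G, g • Q = Q)
    (hinert : ∀ g : G, (∀ b : B, g • b - b ∈ Q) → g = 1) :
    ∃ φ : G, (∀ b : B, φ • b - b ^ Nat.card (A ⧸ P) ∈ Q) ∧ ∀ g : G, g ∈ Subgroup.zpowers φ := by
  haveI : P.IsMaximal := isMaximal_under G P Q
  letI : Field (A ⧸ P) := Ideal.Quotient.field P
  letI : Field (B ⧸ Q) := Ideal.Quotient.field Q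
  haveI : Finite (A ⧸ P) :=
    Finite.of_injective (algebraMap (A ⧸ P) (B ⧸ Q)) (algebraMap (A ⧸ P) (B ⧸ Q)).injective
  letI : Fintype (A ⧸ P) := Fintype.ofFinite (A ⧸ P)
  obtain ⟨φ, hφ⟩ := resAut_surjective G P Q hstab
    (FiniteField.frobeniusAlgEquivOfAlgebraic (A ⧸ P) (B ⧸ Q))
  refine ⟨φ, fun b => ?_, fun g => ?_⟩
  · rw [← Ideal.Quotient.eq, ← resAut_mk G P Q hstab, hφ, map_pow,
      FiniteField.coe_frobeniusAlgEquivOfAlgebraic, Nat.card_eq_fintype_card]
  · obtain ⟨n, hn⟩ := (FiniteField.bijective_frobeniusAlgEquivOfAlgebraic_pow (A ⧸ P) (B ⧸ Q)).2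
      (resAut G P Q hstab g)
    have h1 : resAut G P Q hstab (φ ^ n.1) = resAut G P Q hstab g := by
      rw [map_pow, hφ]; exact hn
    have h2 := (resAut_bijective G P Q hstab hinert).1 h1
    rw [← h2]
    exact (Subgroup.zpowers φ).pow_mem (Subgroup.mem_zpowers φ) _

/-- (A5) Norm on the residue level: every class of `A` is congruent to a `G`-norm. -/
theorem exists_prod_smul_sub_mem {A B : Type*} [CommRing A] [CommRing B] [Algebra A B]
    (G : Type*) [Group G] [Fintype G] [MulSemiringAction G B] [SMulCommClass G A B]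
    [Algebra.IsInvariant A B G]
    (P : Ideal A) (Q : Ideal B) [Q.IsMaximal] [Q.LiesOver P] [Finite (B ⧸ Q)]
    (hstab : ∀ g : G, g • Q = Q)
    (hinert : ∀ g : G, (∀ b : B, g • b - b ∈ Q) → g = 1) (a : A) :
    ∃ b : B, (∏ g : G, g • b) - algebraMap A B a ∈ Q := by
  haveI : P.IsMaximal := isMaximal_under G P Q
  letI : Field (A ⧸ P) := Ideal.Quotient.field P
  letI : Field (B ⧸ Q) := Ideal.Quotient.field Q
  obtain ⟨y, hy⟩ := FiniteField.norm_surjective (A ⧸ P) (B ⧸ Q) (Ideal.Quotient.mk P a)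
  obtain ⟨b, rfl⟩ := Ideal.Quotient.mk_surjective y
  refine ⟨b, ?_⟩
  rw [← Ideal.Quotient.eq, map_prod]
  have h1 := Algebra.norm_eq_prod_automorphisms (A ⧸ P) (Ideal.Quotient.mk Q b)
  rw [hy] at h1
  have h2 : ∏ g : G, Ideal.Quotient.mk Q (g • b) =
      ∏ σ : (B ⧸ Q) ≃ₐ[A ⧸ P] (B ⧸ Q), σ (Ideal.Quotient.mk Q b) :=
    Fintype.prod_bijective _ (resAut_bijective G P Q hstab hinert) _ _
      (fun g => (resAut_mk G P Q hstab g b).symm)
  rw [h2, ← h1]
  rfl

/-- (A6) Trace on the residue level: every class of `A` is congruent to a `G`-trace. -/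
theorem exists_sum_smul_sub_mem {A B : Type*} [CommRing A] [CommRing B] [Algebra A B]
    (G : Type*) [Group G] [Fintype G] [MulSemiringAction G B] [SMulCommClass G A B]
    [Algebra.IsInvariant A B G]
    (P : Ideal A) (Q : Ideal B) [Q.IsMaximal] [Q.LiesOver P] [Finite (B ⧸ Q)]
    (hstab : ∀ g : G, g • Q = Q)
    (hinert : ∀ g : G, (∀ b : B, g • b - b ∈ Q) → g = 1) (a : A) :
    ∃ b : B, (∑ g : G, g • b) - algebraMap A B a ∈ Q := by
  haveI : P.IsMaximal := isMaximal_under G P Q
  letI : Field (A ⧸ P) := Ideal.Quotient.field P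
  letI : Field (B ⧸ Q) := Ideal.Quotient.field Q
  obtain ⟨y, hy⟩ := Algebra.trace_surjective (A ⧸ P) (B ⧸ Q) (Ideal.Quotient.mk P a)
  obtain ⟨b, rfl⟩ := Ideal.Quotient.mk_surjective y
  refine ⟨b, ?_⟩
  rw [← Ideal.Quotient.eq, map_sum]
  have h1 := trace_eq_sum_automorphisms (K := A ⧸ P) (Ideal.Quotient.mk Q b)
  rw [hy] at h1
  have h2 : ∑ g : G, Ideal.Quotient.mk Q (g • b) =
      ∑ σ : (B ⧸ Q) ≃ₐ[A ⧸ P] (B ⧸ Q), σ (Ideal.Quotient.mk Q b) :=
    Fintype.sum_bijective _ (resAut_bijective G P Q hstab hinert) _ _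
      (fun g => (resAut_mk G P Q hstab g b).symm)
  rw [h2, ← h1]
  rfl

end ResidueGalois

end Fermat.Agent.S55.H38
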