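import Mathlib
import Fermat.Agent.S55.H38.ResidueGalois

set_option autoImplicit false
set_option linter.unusedSectionVars false
set_option linter.style.haveILetI false

open scoped Pointwise

namespace Fermat.Agent.S55.H38

section Ball

theorem norm_sub_le_max' {L : Type*} [NormedField L] [IsUltrametricDist L] (a b : L) :
    ‖a - b‖ ≤ max ‖a‖ ‖b‖ := by
  rw [sub_eq_add_neg]
  simpa using IsUltrametricDist.norm_add_le_max a (-b)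

variable (L : Type*) [NormedField L] [IsUltrametricDist L]

/-- The closed unit ball of an ultrametric normed field, as a subring. -/
def ball : Subring L where
  carrier := {x | ‖x‖ ≤ 1}
  mul_mem' := fun {a b} ha hb => by
    show ‖a * b‖ ≤ 1
    rw [norm_mul]
    exact mul_le_one₀ ha (norm_nonneg _) hb
  one_mem' := by show ‖(1 : L)‖ ≤ 1; simp
  add_mem' := fun {a b} ha hb =>
    (IsUltrametricDist.norm_add_le_max a b).trans (max_le ha hb)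
  zero_mem' := by show ‖(0 : L)‖ ≤ 1; simp
  neg_mem' := fun {a} ha => by show ‖-a‖ ≤ 1; rw [norm_neg]; exact ha

theorem mem_ball {x : L} : x ∈ ball L ↔ ‖x‖ ≤ 1 := Iff.rfl

/-- The open unit ball, as an ideal of the closed unit ball. -/
def openIdeal : Ideal (ball L) where
  carrier := {x | ‖(x : L)‖ < 1}
  add_mem' := fun {a b} ha hb =>
    (IsUltrametricDist.norm_add_le_max (a : L) (b : L)).trans_lt (max_lt ha hb)
  zero_mem' := by show ‖((0 : ball L) : L)‖ < 1; simp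
  smul_mem' := fun c x hx => by
    show ‖((c * x : ball L) : L)‖ < 1
    rw [Subring.coe_mul, norm_mul]
    calc ‖(c : L)‖ * ‖(x : L)‖ ≤ 1 * ‖(x : L)‖ :=
          mul_le_mul_of_nonneg_right c.2 (norm_nonneg _)
      _ < 1 := by rw [one_mul]; exact hx

theorem mem_openIdeal {x : ball L} : x ∈ openIdeal L ↔ ‖(x : L)‖ < 1 := Iff.rfl

instance openIdeal_isMaximal : (openIdeal L).IsMaximal := by
  rw [Ideal.isMaximal_iff]
  refine ⟨fun h => ?_, fun J x hIJ hx hxJ => ?_⟩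
  · have : ‖((1 : ball L) : L)‖ < 1 := h
    simp at this
  · have hx1 : ‖(x : L)‖ = 1 := le_antisymm x.2 (not_lt.mp hx)
    have hx0 : (x : L) ≠ 0 := fun h0 => by rw [h0, norm_zero] at hx1; exact zero_ne_one hx1
    have hinv : (x : L)⁻¹ ∈ ball L := by
      show ‖(x : L)⁻¹‖ ≤ 1
      rw [norm_inv, hx1, inv_one]
    have : (1 : ball L) = ⟨(x : L)⁻¹, hinv⟩ * x := by
      ext
      show (1 : L) = (x : L)⁻¹ * (x : L)
      rw [inv_mul_cancel₀ hx0]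
    rw [this]
    exact J.mul_mem_left _ hxJ

theorem finite_quotient (hres : ∃ s : Finset L, ∀ x : L, ‖x‖ ≤ 1 → ∃ y ∈ s, ‖x - y‖ < 1) :
    Finite (ball L ⧸ openIdeal L) := by
  obtain ⟨s, hs⟩ := hres
  classical
  let f : {y : L // y ∈ s ∧ ‖y‖ ≤ 1} → ball L ⧸ openIdeal L :=
    fun y => Ideal.Quotient.mk _ ⟨y.1, y.2.2⟩
  haveI : Finite {y : L // y ∈ s ∧ ‖y‖ ≤ 1} :=
    Finite.of_injective (fun y => (⟨y.1, y.2.1⟩ : s)) (fun a b h => by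
      apply Subtype.ext
      exact congrArg (fun z : s => (z : L)) h)
  refine Finite.of_surjective f ?_
  intro z
  obtain ⟨x, rfl⟩ := Ideal.Quotient.mk_surjective z
  obtain ⟨y, hy, hxy⟩ := hs x x.2
  have hy1 : ‖y‖ ≤ 1 := by
    have : y = (x : L) - ((x : L) - y) := by ring
    rw [this]
    exact (norm_sub_le_max' _ _).trans (max_le x.2 hxy.le)
  refine ⟨⟨y, hy, hy1⟩, ?_⟩
  show Ideal.Quotient.mk _ _ = Ideal.Quotient.mk _ _
  rw [Ideal.Quotient.eq]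
  show ‖y - (x : L)‖ < 1
  rw [← norm_neg, neg_sub]
  exact hxy

end Ball

section Action

variable {L : Type*} [NormedField L] [IsUltrametricDist L]
  (Γ : Type*) [Group Γ] [MulSemiringAction Γ L]

theorem ball_invariant (hiso : ∀ (g : Γ) (x : L), ‖g • x‖ = ‖x‖) :
    IsInvariantSubring Γ (ball L) :=
  ⟨fun g x hx => by show ‖g • x‖ ≤ 1; rw [hiso]; exact hx⟩

theorem smul_openIdeal [IsInvariantSubring Γ (ball L)]
    (hiso : ∀ (g : Γ) (x : L), ‖g • x‖ = ‖x‖) (g : Γ) :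
    g • openIdeal L = openIdeal L := by
  ext x
  rw [Ideal.mem_pointwise_smul_iff_inv_smul_mem]
  show ‖g⁻¹ • (x : L)‖ < 1 ↔ ‖(x : L)‖ < 1
  rw [hiso]

/-- (E2) A residue class fixed by `Γ` contains a `Γ`-fixed element. -/
theorem exists_fixed_of_residue_fixed [Finite Γ]
    (hiso : ∀ (g : Γ) (x : L), ‖g • x‖ = ‖x‖)
    (hres : ∃ s : Finset L, ∀ x : L, ‖x‖ ≤ 1 → ∃ y ∈ s, ‖x - y‖ < 1)
    (x : L) (hx : ‖x‖ ≤ 1) (hfix : ∀ g : Γ, ‖g • x - x‖ < 1) :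
    ∃ a : L, ‖a‖ ≤ 1 ∧ (∀ g : Γ, g • a = a) ∧ ‖x - a‖ < 1 := by
  haveI := ball_invariant Γ hiso
  haveI := finite_quotient L hres
  haveI : Algebra.IsInvariant (FixedPoints.subring (ball L) Γ) (ball L) Γ :=
    ⟨fun b hb => ⟨⟨b, hb⟩, rfl⟩⟩
  obtain ⟨a, ha⟩ := exists_sub_mem_of_fixed Γ
    ((openIdeal L).under (FixedPoints.subring (ball L) Γ)) (openIdeal L)
    (smul_openIdeal Γ hiso) ⟨x, hx⟩ (fun g => hfix g)
  exact ⟨((a : ball L) : L), (a : ball L).2, fun g => congrArg Subtype.val (a.2 g), ha⟩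

theorem norm_le_of_lt_one {ϖ : L} (h0 : ϖ ≠ 0) (h1 : ‖ϖ‖ < 1)
    (hdisc : ∀ x : L, x ≠ 0 → ∃ n : ℤ, ‖x‖ = ‖ϖ‖ ^ n) {z : L} (hz : ‖z‖ < 1) : ‖z‖ ≤ ‖ϖ‖ := by
  rcases eq_or_ne z 0 with rfl | hz0
  · simp
  obtain ⟨n, hn⟩ := hdisc z hz0
  rw [hn] at hz ⊢
  have hpos : 0 < ‖ϖ‖ := norm_pos_iff.mpr h0
  have hn1 : 1 ≤ n := by
    by_contra hcon
    have hn0 : n ≤ 0 := by omega
    have : 1 ≤ ‖ϖ‖ ^ n := (one_le_zpow_iff_right_of_lt_one₀ hpos h1).mpr hn0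
    linarith
  calc ‖ϖ‖ ^ n ≤ ‖ϖ‖ ^ (1 : ℤ) := (zpow_le_zpow_iff_right_of_lt_one₀ hpos h1).mpr hn1
    _ = ‖ϖ‖ := zpow_one _

/-- (E1) If `Γ` acts trivially on the residue field and fixes a uniformiser, it acts trivially. -/
theorem smul_eq_of_residue_trivial [Finite Γ]
    (hiso : ∀ (g : Γ) (x : L), ‖g • x‖ = ‖x‖)
    (hres : ∃ s : Finset L, ∀ x : L, ‖x‖ ≤ 1 → ∃ y ∈ s, ‖x - y‖ < 1)
    {ϖ : L} (h0 : ϖ ≠ 0) (h1 : ‖ϖ‖ < 1) (hfixϖ : ∀ g : Γ, g • ϖ = ϖ)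
    (hdisc : ∀ x : L, x ≠ 0 → ∃ n : ℤ, ‖x‖ = ‖ϖ‖ ^ n)
    (htriv : ∀ (g : Γ) (x : L), ‖x‖ ≤ 1 → ‖g • x - x‖ < 1) (g : Γ) (x : L) : g • x = x := by
  have hpos : 0 < ‖ϖ‖ := norm_pos_iff.mpr h0
  -- the case of the unit ball
  have hball : ∀ x : L, ‖x‖ ≤ 1 → g • x = x := by
    intro x hx
    have key : ∀ k : ℕ, ∃ a : L, ‖a‖ ≤ 1 ∧ (∀ g : Γ, g • a = a) ∧ ‖x - a‖ ≤ ‖ϖ‖ ^ k := by
      intro k
      induction k with
      | zero => exact ⟨0, by simp, fun g => smul_zero g, by simpa using hx⟩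
      | succ k ih =>
        obtain ⟨a, ha1, hafix, hak⟩ := ih
        have hϖk : ‖ϖ ^ k‖ = ‖ϖ‖ ^ k := norm_pow ϖ k
        have hϖk0 : ϖ ^ k ≠ 0 := pow_ne_zero k h0
        have hy : ‖(x - a) / ϖ ^ k‖ ≤ 1 := by
          rw [norm_div, hϖk]
          exact div_le_one_of_le₀ hak (pow_nonneg hpos.le k)
        obtain ⟨b, hb1, hbfix, hyb⟩ := exists_fixed_of_residue_fixed Γ hiso hres _ hy
          (fun g => htriv g _ hy)
        have hyb' := norm_le_of_lt_one h0 h1 hdisc hyb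
        refine ⟨a + ϖ ^ k * b, ?_, fun g => ?_, ?_⟩
        · refine (IsUltrametricDist.norm_add_le_max _ _).trans (max_le ha1 ?_)
          rw [norm_mul, hϖk]
          exact mul_le_one₀ (pow_le_one₀ hpos.le h1.le) (norm_nonneg _) hb1
        · rw [smul_add, smul_mul', smul_pow', hfixϖ, hafix, hbfix]
        · have : x - (a + ϖ ^ k * b) = ϖ ^ k * ((x - a) / ϖ ^ k - b) := by
            field_simp
            ring
          rw [this, norm_mul, hϖk, pow_succ]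
          exact mul_le_mul_of_nonneg_left hyb' (pow_nonneg hpos.le k)
    have hle : ∀ k : ℕ, ‖g • x - x‖ ≤ ‖ϖ‖ ^ k := by
      intro k
      obtain ⟨a, -, hafix, hak⟩ := key k
      have : g • x - x = g • (x - a) - (x - a) := by
        rw [smul_sub, hafix]; ring
      rw [this]
      refine (norm_sub_le_max' _ _).trans (max_le ?_ hak)
      rw [hiso]; exact hak
    have hlim : Filter.Tendsto (fun k : ℕ => ‖ϖ‖ ^ k) Filter.atTop (nhds 0) :=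
      tendsto_pow_atTop_nhds_zero_of_lt_one hpos.le h1
    have h0' : ‖g • x - x‖ ≤ 0 := ge_of_tendsto' hlim hle
    exact sub_eq_zero.mp (norm_le_zero_iff.mp h0')
  rcases le_or_gt ‖x‖ 1 with hx | hx
  · exact hball x hx
  · have hx0 : x ≠ 0 := fun h => by rw [h, norm_zero] at hx; linarith
    have hinv : ‖x⁻¹‖ ≤ 1 := by
      rw [norm_inv]
      exact inv_le_one_of_one_le₀ hx.le
    have h2 := hball x⁻¹ hinv
    rw [smul_inv''] at h2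
    exact inv_injective h2

end Action

section Galois

variable {K L : Type*} [Field K] [NormedField L] [IsUltrametricDist L] [Algebra K L]
  [FiniteDimensional K L] [IsGalois K L]

/-- The inertia subgroup: automorphisms acting trivially on the residue field. -/
def inertia (hiso : ∀ (σ : L ≃ₐ[K] L) (x : L), ‖σ x‖ = ‖x‖) : Subgroup (L ≃ₐ[K] L) where
  carrier := {σ | ∀ x : L, ‖x‖ ≤ 1 → ‖σ x - x‖ < 1}
  one_mem' := fun x _ => by simp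
  mul_mem' := fun {σ τ} hσ hτ x hx => by
    have : (σ * τ) x - x = σ (τ x - x) + (σ x - x) := by
      rw [AlgEquiv.mul_apply, map_sub]; ring
    rw [this]
    refine (IsUltrametricDist.norm_add_le_max _ _).trans_lt (max_lt ?_ (hσ x hx))
    rw [hiso]; exact hτ x hx
  inv_mem' := fun {σ} hσ x hx => by
    have : σ⁻¹ x - x = - σ⁻¹ (σ x - x) := by
      rw [map_sub]
      have : σ⁻¹ (σ x) = x := σ.symm_apply_apply x
      rw [this]; ring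
    rw [this, norm_neg, hiso]
    exact hσ x hx

/-- (U1) In an unramified extension the inertia group is trivial. -/
theorem eq_one_of_residue_trivial
    (hiso : ∀ (σ : L ≃ₐ[K] L) (x : L), ‖σ x‖ = ‖x‖)
    (hres : ∃ s : Finset L, ∀ x : L, ‖x‖ ≤ 1 → ∃ y ∈ s, ‖x - y‖ < 1)
    (hunr : ∃ ϖ : K, ϖ ≠ 0 ∧ ‖algebraMap K L ϖ‖ < 1 ∧
      ∀ x : L, x ≠ 0 → ∃ n : ℤ, ‖x‖ = ‖algebraMap K L ϖ‖ ^ n)
    (σ : L ≃ₐ[K] L) (hσ : ∀ x : L, ‖x‖ ≤ 1 → ‖σ x - x‖ < 1) : σ = 1 := by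
  obtain ⟨ϖ, hϖ0, hϖ1, hdisc⟩ := hunr
  have hϖ0' : algebraMap K L ϖ ≠ 0 := by
    rwa [Ne, map_eq_zero]
  ext x
  have := smul_eq_of_residue_trivial (L := L) (inertia hiso)
    (fun g x => hiso g.1 x) hres hϖ0' hϖ1 (fun g => g.1.commutes ϖ) hdisc
    (fun g x hx => g.2 x hx) ⟨σ, hσ⟩ x
  exact this

/-- An element of `L` fixed by the Galois group comes from `K`. -/
theorem exists_algebraMap_of_fixed (a : L) (ha : ∀ σ : L ≃ₐ[K] L, σ a = a) :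
    ∃ c : K, algebraMap K L c = a :=
  IntermediateField.mem_bot.mp ((IsGalois.mem_bot_iff_fixed a).mpr ha)

/-- (U2) A residue class fixed by the Galois group has a representative in `K`. -/
theorem exists_algebraMap_of_residue_fixed
    (hiso : ∀ (σ : L ≃ₐ[K] L) (x : L), ‖σ x‖ = ‖x‖)
    (hres : ∃ s : Finset L, ∀ x : L, ‖x‖ ≤ 1 → ∃ y ∈ s, ‖x - y‖ < 1)
    (x : L) (hx : ‖x‖ ≤ 1) (hfix : ∀ σ : L ≃ₐ[K] L, ‖σ x - x‖ < 1) :
    ∃ a : K, ‖algebraMap K L a‖ ≤ 1 ∧ ‖x - algebraMap K L a‖ < 1 := by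
  obtain ⟨a, ha1, hafix, hxa⟩ := exists_fixed_of_residue_fixed (L := L) (L ≃ₐ[K] L)
    (fun g x => hiso g x) hres x hx hfix
  obtain ⟨c, rfl⟩ := exists_algebraMap_of_fixed a hafix
  exact ⟨c, ha1, hxa⟩

/-- The algebraic set-up behind (U3)–(U4): inertia is trivial in the sense of `ResidueGalois`. -/
theorem ball_inertia_trivial [IsInvariantSubring (L ≃ₐ[K] L) (ball L)]
    (hiso : ∀ (σ : L ≃ₐ[K] L) (x : L), ‖σ x‖ = ‖x‖)
    (hres : ∃ s : Finset L, ∀ x : L, ‖x‖ ≤ 1 → ∃ y ∈ s, ‖x - y‖ < 1)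
    (hunr : ∃ ϖ : K, ϖ ≠ 0 ∧ ‖algebraMap K L ϖ‖ < 1 ∧
      ∀ x : L, x ≠ 0 → ∃ n : ℤ, ‖x‖ = ‖algebraMap K L ϖ‖ ^ n)
    (g : L ≃ₐ[K] L) (hg : ∀ b : ball L, g • b - b ∈ openIdeal L) : g = 1 :=
  eq_one_of_residue_trivial hiso hres hunr g (fun x hx => hg ⟨x, hx⟩)

/-- (U3) The Galois group of an unramified extension is cyclic, generated by a Frobenius
element `φ`: `φ x ≡ x ^ N` on the unit ball, `N` the cardinality of the residue field of `K`. -/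
theorem exists_frobenius_gen
    (hiso : ∀ (σ : L ≃ₐ[K] L) (x : L), ‖σ x‖ = ‖x‖)
    (hres : ∃ s : Finset L, ∀ x : L, ‖x‖ ≤ 1 → ∃ y ∈ s, ‖x - y‖ < 1)
    (hunr : ∃ ϖ : K, ϖ ≠ 0 ∧ ‖algebraMap K L ϖ‖ < 1 ∧
      ∀ x : L, x ≠ 0 → ∃ n : ℤ, ‖x‖ = ‖algebraMap K L ϖ‖ ^ n) :
    ∃ (φ : L ≃ₐ[K] L) (N : ℕ), (∀ x : L, ‖x‖ ≤ 1 → ‖φ x - x ^ N‖ < 1) ∧
      ∀ σ : L ≃ₐ[K] L, σ ∈ Subgroup.zpowers φ := by
  haveI := ball_invariant (L := L) (L ≃ₐ[K] L) (fun g x => hiso g x)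
  haveI := finite_quotient L hres
  haveI : Algebra.IsInvariant (FixedPoints.subring (ball L) (L ≃ₐ[K] L)) (ball L) (L ≃ₐ[K] L) :=
    ⟨fun b hb => ⟨⟨b, hb⟩, rfl⟩⟩
  obtain ⟨φ, hφ, hgen⟩ := exists_frobenius (L ≃ₐ[K] L)
    ((openIdeal L).under (FixedPoints.subring (ball L) (L ≃ₐ[K] L))) (openIdeal L)
    (smul_openIdeal (L ≃ₐ[K] L) (fun g x => hiso g x))
    (ball_inertia_trivial hiso hres hunr)
  exact ⟨φ, _, fun x hx => hφ ⟨x, hx⟩, hgen⟩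

theorem isCyclic_of_unramified
    (hiso : ∀ (σ : L ≃ₐ[K] L) (x : L), ‖σ x‖ = ‖x‖)
    (hres : ∃ s : Finset L, ∀ x : L, ‖x‖ ≤ 1 → ∃ y ∈ s, ‖x - y‖ < 1)
    (hunr : ∃ ϖ : K, ϖ ≠ 0 ∧ ‖algebraMap K L ϖ‖ < 1 ∧
      ∀ x : L, x ≠ 0 → ∃ n : ℤ, ‖x‖ = ‖algebraMap K L ϖ‖ ^ n) :
    IsCyclic (L ≃ₐ[K] L) := by
  obtain ⟨φ, -, -, hgen⟩ := exists_frobenius_gen hiso hres hunr
  exact ⟨⟨φ, hgen⟩⟩

/-- Norm on the residue level. -/
theorem exists_norm_congr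
    (hiso : ∀ (σ : L ≃ₐ[K] L) (x : L), ‖σ x‖ = ‖x‖)
    (hres : ∃ s : Finset L, ∀ x : L, ‖x‖ ≤ 1 → ∃ y ∈ s, ‖x - y‖ < 1)
    (hunr : ∃ ϖ : K, ϖ ≠ 0 ∧ ‖algebraMap K L ϖ‖ < 1 ∧
      ∀ x : L, x ≠ 0 → ∃ n : ℤ, ‖x‖ = ‖algebraMap K L ϖ‖ ^ n)
    (a : L) (ha : ‖a‖ ≤ 1) (hafix : ∀ σ : L ≃ₐ[K] L, σ a = a) :
    ∃ b : L, ‖b‖ ≤ 1 ∧ ‖(∏ σ : L ≃ₐ[K] L, σ b) - a‖ < 1 := by
  haveI := ball_invariant (L := L) (L ≃ₐ[K] L) (fun g x => hiso g x)
  haveI := finite_quotient L hres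
  haveI : Algebra.IsInvariant (FixedPoints.subring (ball L) (L ≃ₐ[K] L)) (ball L) (L ≃ₐ[K] L) :=
    ⟨fun b hb => ⟨⟨b, hb⟩, rfl⟩⟩
  obtain ⟨b, hb⟩ := exists_prod_smul_sub_mem (L ≃ₐ[K] L)
    ((openIdeal L).under (FixedPoints.subring (ball L) (L ≃ₐ[K] L))) (openIdeal L)
    (smul_openIdeal (L ≃ₐ[K] L) (fun g x => hiso g x))
    (ball_inertia_trivial hiso hres hunr)
    ⟨⟨a, ha⟩, fun g => Subtype.ext (hafix g)⟩
  refine ⟨b, b.2, ?_⟩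
  have h1 : ‖(((∏ g : L ≃ₐ[K] L, g • b) - ⟨a, ha⟩ : ball L) : L)‖ < 1 := hb
  have h2 : (((∏ g : L ≃ₐ[K] L, g • b) - ⟨a, ha⟩ : ball L) : L) =
      (∏ σ : L ≃ₐ[K] L, σ (b : L)) - a := by
    show ((∏ g : L ≃ₐ[K] L, g • b : ball L) : L) - a = _
    rw [show ((∏ g : L ≃ₐ[K] L, g • b : ball L) : L) =
      (ball L).subtype (∏ g : L ≃ₐ[K] L, g • b) from rfl, map_prod]
    rfl
  rwa [h2] at h1

/-- Trace on the residue level. -/
theorem exists_trace_congr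
    (hiso : ∀ (σ : L ≃ₐ[K] L) (x : L), ‖σ x‖ = ‖x‖)
    (hres : ∃ s : Finset L, ∀ x : L, ‖x‖ ≤ 1 → ∃ y ∈ s, ‖x - y‖ < 1)
    (hunr : ∃ ϖ : K, ϖ ≠ 0 ∧ ‖algebraMap K L ϖ‖ < 1 ∧
      ∀ x : L, x ≠ 0 → ∃ n : ℤ, ‖x‖ = ‖algebraMap K L ϖ‖ ^ n)
    (a : L) (ha : ‖a‖ ≤ 1) (hafix : ∀ σ : L ≃ₐ[K] L, σ a = a) :
    ∃ b : L, ‖b‖ ≤ 1 ∧ ‖(∑ σ : L ≃ₐ[K] L, σ b) - a‖ < 1 := by
  haveI := ball_invariant (L := L) (L ≃ₐ[K] L) (fun g x => hiso g x)
  haveI := finite_quotient L hres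
  haveI : Algebra.IsInvariant (FixedPoints.subring (ball L) (L ≃ₐ[K] L)) (ball L) (L ≃ₐ[K] L) :=
    ⟨fun b hb => ⟨⟨b, hb⟩, rfl⟩⟩
  obtain ⟨b, hb⟩ := exists_sum_smul_sub_mem (L ≃ₐ[K] L)
    ((openIdeal L).under (FixedPoints.subring (ball L) (L ≃ₐ[K] L))) (openIdeal L)
    (smul_openIdeal (L ≃ₐ[K] L) (fun g x => hiso g x))
    (ball_inertia_trivial hiso hres hunr)
    ⟨⟨a, ha⟩, fun g => Subtype.ext (hafix g)⟩
  refine ⟨b, b.2, ?_⟩
  have h1 : ‖(((∑ g : L ≃ₐ[K] L, g • b) - ⟨a, ha⟩ : ball L) : L)‖ < 1 := hb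
  have h2 : (((∑ g : L ≃ₐ[K] L, g • b) - ⟨a, ha⟩ : ball L) : L) =
      (∑ σ : L ≃ₐ[K] L, σ (b : L)) - a := by
    show ((∑ g : L ≃ₐ[K] L, g • b : ball L) : L) - a = _
    rw [show ((∑ g : L ≃ₐ[K] L, g • b : ball L) : L) =
      (ball L).subtype (∑ g : L ≃ₐ[K] L, g • b) from rfl, map_sum]
    rfl
  rwa [h2] at h1

end Galois

section Approx

variable {L : Type*} [NormedField L] [IsUltrametricDist L]

theorem norm_one_add_of_lt {z : L} (hz : ‖z‖ < 1) : ‖1 + z‖ = 1 := by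
  apply le_antisymm
  · exact (IsUltrametricDist.norm_add_le_max _ _).trans (max_le (by simp) hz.le)
  · have h1 : (1 : L) = (1 + z) - z := by ring
    have h2 : ‖(1 : L)‖ ≤ max ‖1 + z‖ ‖z‖ := by
      conv_lhs => rw [h1]
      exact norm_sub_le_max' _ _
    rw [norm_one] at h2
    rcases le_max_iff.mp h2 with h | h
    · exact h
    · exact absurd h (not_le.mpr hz)

theorem norm_eq_one_of_sub_lt {a u : L} (hu : ‖u‖ = 1) (h : ‖a - u‖ < 1) : ‖a‖ = 1 := by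
  have hu0 : u ≠ 0 := fun h0 => by rw [h0, norm_zero] at hu; exact zero_ne_one hu
  have h1 : a = u * (1 + (a - u) / u) := by field_simp; ring
  rw [h1, norm_mul, hu, one_mul]
  apply norm_one_add_of_lt
  rw [norm_div, hu, div_one]
  exact h

/-- Ultrametric first-order expansion of a finite product. -/
theorem norm_prod_one_add_sub_le {ι : Type*} (s : Finset ι) (z : ι → L) {δ : ℝ}
    (hδ1 : δ ≤ 1) (hz : ∀ i ∈ s, ‖z i‖ ≤ δ) :
    ‖∏ i ∈ s, (1 + z i) - 1‖ ≤ max δ 0 ∧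
      ‖∏ i ∈ s, (1 + z i) - 1 - ∑ i ∈ s, z i‖ ≤ max δ 0 ^ 2 := by
  classical
  induction s using Finset.induction_on with
  | empty => simp
  | insert a s ha ih =>
    obtain ⟨ih1, ih2⟩ := ih (fun i hi => hz i (Finset.mem_insert_of_mem hi))
    have hza : ‖z a‖ ≤ max δ 0 := (hz a (Finset.mem_insert_self a s)).trans (le_max_left _ _)
    have hm1 : max δ 0 ≤ 1 := max_le hδ1 zero_le_one
    have hm0 : 0 ≤ max δ 0 := le_max_right _ _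
    set Pr := ∏ i ∈ s, (1 + z i) with hPr
    have hPr1 : ‖Pr‖ ≤ 1 := by
      have : Pr = (Pr - 1) + 1 := by ring
      rw [this]
      exact (IsUltrametricDist.norm_add_le_max _ _).trans (max_le (ih1.trans hm1) (by simp))
    rw [Finset.prod_insert ha, Finset.sum_insert ha]
    constructor
    · have : (1 + z a) * Pr - 1 = (Pr - 1) + z a * Pr := by ring
      rw [this]
      refine (IsUltrametricDist.norm_add_le_max _ _).trans (max_le ih1 ?_)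
      rw [norm_mul]
      calc ‖z a‖ * ‖Pr‖ ≤ max δ 0 * 1 := mul_le_mul hza hPr1 (norm_nonneg _) hm0
        _ = max δ 0 := mul_one _
    · have : (1 + z a) * Pr - 1 - (z a + ∑ i ∈ s, z i) =
          (Pr - 1 - ∑ i ∈ s, z i) + z a * (Pr - 1) := by ring
      rw [this]
      refine (IsUltrametricDist.norm_add_le_max _ _).trans (max_le ih2 ?_)
      rw [norm_mul, sq]
      exact mul_le_mul hza ih1 (norm_nonneg _) hm0

end Approx

section UnitNorm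

variable {K L : Type*} [Field K] [NormedField L] [IsUltrametricDist L] [Algebra K L]
  [FiniteDimensional K L] [IsGalois K L]

theorem prod_aut_fixed (y : L) (τ : L ≃ₐ[K] L) :
    τ (∏ σ : L ≃ₐ[K] L, σ y) = ∏ σ : L ≃ₐ[K] L, σ y := by
  rw [map_prod]
  exact Fintype.prod_equiv (Equiv.mulLeft τ) _ _ (fun σ => rfl)

theorem norm_prod_aut (hiso : ∀ (σ : L ≃ₐ[K] L) (x : L), ‖σ x‖ = ‖x‖) (y : L) :
    ‖∏ σ : L ≃ₐ[K] L, σ y‖ = ‖y‖ ^ Fintype.card (L ≃ₐ[K] L) := by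
  rw [norm_prod]
  simp [hiso, Finset.prod_const]

/-- One step of the successive approximation. -/
theorem unitNorm_step
    (hiso : ∀ (σ : L ≃ₐ[K] L) (x : L), ‖σ x‖ = ‖x‖)
    (hres : ∃ s : Finset L, ∀ x : L, ‖x‖ ≤ 1 → ∃ y ∈ s, ‖x - y‖ < 1)
    (hunr : ∃ ϖ : K, ϖ ≠ 0 ∧ ‖algebraMap K L ϖ‖ < 1 ∧
      ∀ x : L, x ≠ 0 → ∃ n : ℤ, ‖x‖ = ‖algebraMap K L ϖ‖ ^ n)
    {ϖ : K} (hϖ0 : ϖ ≠ 0) (hϖ1 : ‖algebraMap K L ϖ‖ < 1)
    (hdisc : ∀ x : L, x ≠ 0 → ∃ n : ℤ, ‖x‖ = ‖algebraMap K L ϖ‖ ^ n)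
    (u : L) (hu : ‖u‖ = 1) (hufix : ∀ σ : L ≃ₐ[K] L, σ u = u)
    (k : ℕ) (y : L) (hy : ‖y‖ = 1)
    (hk : ‖(∏ σ : L ≃ₐ[K] L, σ y) - u‖ ≤ ‖algebraMap K L ϖ‖ ^ (k + 1)) :
    ∃ y' : L, ‖y'‖ = 1 ∧ ‖y' - y‖ ≤ ‖algebraMap K L ϖ‖ ^ (k + 1) ∧
      ‖(∏ σ : L ≃ₐ[K] L, σ y') - u‖ ≤ ‖algebraMap K L ϖ‖ ^ (k + 2) := by
  set p : L := algebraMap K L ϖ with hp
  set r : ℝ := ‖p‖ with hr
  have hp0 : p ≠ 0 := by rw [hp, Ne, map_eq_zero]; exact hϖ0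
  have hr0 : 0 < r := norm_pos_iff.mpr hp0
  have hrk : r ^ (k + 1) < 1 := pow_lt_one₀ hr0.le hϖ1 (Nat.succ_ne_zero k)
  set Ny : L := ∏ σ : L ≃ₐ[K] L, σ y with hNy
  have hNy1 : ‖Ny‖ = 1 := norm_eq_one_of_sub_lt hu (hk.trans_lt hrk)
  have hNy0 : Ny ≠ 0 := fun h0 => by rw [h0, norm_zero] at hNy1; exact zero_ne_one hNy1
  have hNyfix : ∀ τ : L ≃ₐ[K] L, τ Ny = Ny := prod_aut_fixed y
  have hpk : ‖p ^ (k + 1)‖ = r ^ (k + 1) := norm_pow p (k + 1)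
  have hpk0 : p ^ (k + 1) ≠ 0 := pow_ne_zero _ hp0
  have hpfix : ∀ τ : L ≃ₐ[K] L, τ p = p := fun τ => τ.commutes ϖ
  -- the correction term
  set c : L := (u - Ny) / (p ^ (k + 1) * Ny) with hc
  have hc1 : ‖c‖ ≤ 1 := by
    rw [hc, norm_div, norm_mul, hpk, hNy1, mul_one, ← norm_neg, neg_sub]
    exact div_le_one_of_le₀ hk (pow_nonneg hr0.le _)
  have hcfix : ∀ τ : L ≃ₐ[K] L, τ c = c := by
    intro τ
    rw [hc, map_div₀, map_sub, map_mul, map_pow, hufix, hNyfix, hpfix]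
  obtain ⟨t, ht1, htc⟩ := exists_trace_congr hiso hres hunr c hc1 hcfix
  have htc' : ‖(∑ σ : L ≃ₐ[K] L, σ t) - c‖ ≤ r := norm_le_of_lt_one hp0 hϖ1 hdisc htc
  have hsmall : ‖p ^ (k + 1) * t‖ ≤ r ^ (k + 1) := by
    rw [norm_mul, hpk]
    calc r ^ (k + 1) * ‖t‖ ≤ r ^ (k + 1) * 1 :=
          mul_le_mul_of_nonneg_left ht1 (pow_nonneg hr0.le _)
      _ = r ^ (k + 1) := mul_one _
  refine ⟨y * (1 + p ^ (k + 1) * t), ?_, ?_, ?_⟩
  · rw [norm_mul, hy, one_mul]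
    exact norm_one_add_of_lt (hsmall.trans_lt hrk)
  · have : y * (1 + p ^ (k + 1) * t) - y = y * (p ^ (k + 1) * t) := by ring
    rw [this, norm_mul, hy, one_mul]
    exact hsmall
  · -- expansion of the norm
    have hprod : (∏ σ : L ≃ₐ[K] L, σ (y * (1 + p ^ (k + 1) * t))) =
        Ny * ∏ σ : L ≃ₐ[K] L, (1 + p ^ (k + 1) * σ t) := by
      rw [hNy, ← Finset.prod_mul_distrib]
      refine Finset.prod_congr rfl (fun σ _ => ?_)
      rw [map_mul, map_add, map_one, map_mul, map_pow, hpfix]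
    obtain ⟨-, hE⟩ := norm_prod_one_add_sub_le (Finset.univ : Finset (L ≃ₐ[K] L))
      (fun σ => p ^ (k + 1) * σ t) (δ := r ^ (k + 1)) hrk.le (fun σ _ => by
        rw [norm_mul, hpk, hiso]
        calc r ^ (k + 1) * ‖t‖ ≤ r ^ (k + 1) * 1 :=
              mul_le_mul_of_nonneg_left ht1 (pow_nonneg hr0.le _)
          _ = r ^ (k + 1) := mul_one _)
    rw [max_eq_left (pow_nonneg hr0.le _), ← Finset.mul_sum] at hE
    set Pr : L := ∏ σ : L ≃ₐ[K] L, (1 + p ^ (k + 1) * σ t) with hPr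
    set T : L := ∑ σ : L ≃ₐ[K] L, σ t with hT
    have hu' : u - Ny = c * (p ^ (k + 1) * Ny) := by
      rw [hc]; field_simp
    have key : Ny * Pr - u =
        - (Ny * p ^ (k + 1) * (c - T)) + Ny * (Pr - 1 - p ^ (k + 1) * T) := by
      have : u = Ny + c * (p ^ (k + 1) * Ny) := by rw [← hu']; ring
      rw [this]; ring
    rw [hprod, key]
    refine (IsUltrametricDist.norm_add_le_max _ _).trans (max_le ?_ ?_)
    · rw [norm_neg, norm_mul, norm_mul, hNy1, one_mul, hpk, ← norm_neg, neg_sub, pow_succ r (k + 1)]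
      exact mul_le_mul_of_nonneg_left htc' (pow_nonneg hr0.le _)
    · rw [norm_mul, hNy1, one_mul]
      refine hE.trans ?_
      rw [← pow_mul]
      exact pow_le_pow_of_le_one hr0.le hϖ1.le (by omega)

/-- (U4) **Unit norms in unramified extensions**: every unit of `K` is the norm of a unit
of `L`. -/
theorem unit_norm_surjective [CompleteSpace L]
    (hiso : ∀ (σ : L ≃ₐ[K] L) (x : L), ‖σ x‖ = ‖x‖)
    (hres : ∃ s : Finset L, ∀ x : L, ‖x‖ ≤ 1 → ∃ y ∈ s, ‖x - y‖ < 1)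
    (hunr : ∃ ϖ : K, ϖ ≠ 0 ∧ ‖algebraMap K L ϖ‖ < 1 ∧
      ∀ x : L, x ≠ 0 → ∃ n : ℤ, ‖x‖ = ‖algebraMap K L ϖ‖ ^ n)
    (u : K) (hu : ‖algebraMap K L u‖ = 1) :
    ∃ y : L, ‖y‖ = 1 ∧ Algebra.norm K y = u := by
  obtain ⟨ϖ, hϖ0, hϖ1, hdisc⟩ := id hunr
  set p : L := algebraMap K L ϖ with hp
  set r : ℝ := ‖p‖ with hr
  have hp0 : p ≠ 0 := by rw [hp, Ne, map_eq_zero]; exact hϖ0
  have hr0 : 0 < r := norm_pos_iff.mpr hp0
  set u' : L := algebraMap K L u with hu'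
  have hufix : ∀ σ : L ≃ₐ[K] L, σ u' = u' := fun σ => σ.commutes u
  let Pk : ℕ → L → Prop := fun k y =>
    ‖y‖ = 1 ∧ ‖(∏ σ : L ≃ₐ[K] L, σ y) - u'‖ ≤ r ^ (k + 1)
  -- the initial approximation
  have h0 : ∃ y : L, Pk 0 y := by
    obtain ⟨b, hb1, hb⟩ := exists_norm_congr hiso hres hunr u' hu.le hufix
    refine ⟨b, ?_, ?_⟩
    · have h1 : ‖∏ σ : L ≃ₐ[K] L, σ b‖ = 1 := norm_eq_one_of_sub_lt hu hb
      rw [norm_prod_aut hiso] at h1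
      exact (pow_eq_one_iff_of_nonneg (norm_nonneg b) Fintype.card_ne_zero).mp h1
    · rw [zero_add, pow_one]
      exact norm_le_of_lt_one hp0 hϖ1 hdisc hb
  have hstep : ∀ (k : ℕ) (y : {y : L // Pk k y}),
      ∃ y' : {y : L // Pk (k + 1) y}, ‖(y' : L) - y‖ ≤ r ^ (k + 1) := by
    rintro k ⟨y, hy1, hyk⟩
    obtain ⟨y', h1, h2, h3⟩ := unitNorm_step hiso hres hunr hϖ0 hϖ1 hdisc u' hu hufix k y hy1 hyk
    exact ⟨⟨y', h1, h3⟩, h2⟩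
  choose next hnext using hstep
  obtain ⟨y0, hy0⟩ := h0
  let f : ∀ k : ℕ, {y : L // Pk k y} := fun k =>
    Nat.rec (motive := fun k => {y : L // Pk k y}) ⟨y0, hy0⟩ (fun k yk => next k yk) k
  have hf : ∀ k, ‖((f (k + 1) : {y : L // Pk (k + 1) y}) : L) - f k‖ ≤ r ^ (k + 1) :=
    fun k => hnext k (f k)
  let g : ℕ → L := fun k => (f k : L)
  have hcau : CauchySeq g := by
    refine cauchySeq_of_le_geometric r 1 hϖ1 (fun k => ?_)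
    rw [dist_eq_norm, ← norm_neg, neg_sub, one_mul]
    refine (hf k).trans ?_
    rw [pow_succ]
    exact mul_le_of_le_one_right (pow_nonneg hr0.le k) hϖ1.le
  obtain ⟨y, hy⟩ := cauchySeq_tendsto_of_complete hcau
  have hynorm : ‖y‖ = 1 := by
    have h1 : Filter.Tendsto (fun k => ‖g k‖) Filter.atTop (nhds ‖y‖) :=
      (continuous_norm.tendsto y).comp hy
    have h2 : (fun k => ‖g k‖) = fun _ => (1 : ℝ) := funext (fun k => (f k).2.1)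
    rw [h2] at h1
    exact (tendsto_nhds_unique h1 tendsto_const_nhds)
  have hcont : Continuous (fun z : L => ∏ σ : L ≃ₐ[K] L, σ z) := by
    refine continuous_finsetProd _ (fun σ _ => ?_)
    exact (AddMonoidHomClass.isometry_of_norm σ (hiso σ)).continuous
  have hN1 : Filter.Tendsto (fun k => ∏ σ : L ≃ₐ[K] L, σ (g k)) Filter.atTop
      (nhds (∏ σ : L ≃ₐ[K] L, σ y)) := (hcont.tendsto y).comp hy
  have hN2 : Filter.Tendsto (fun k => ∏ σ : L ≃ₐ[K] L, σ (g k)) Filter.atTop (nhds u') := by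
    rw [tendsto_iff_norm_sub_tendsto_zero]
    have hlim : Filter.Tendsto (fun k : ℕ => r ^ (k + 1)) Filter.atTop (nhds 0) :=
      (tendsto_pow_atTop_nhds_zero_of_lt_one hr0.le hϖ1).comp (Filter.tendsto_add_atTop_nat 1)
    exact squeeze_zero (fun k => norm_nonneg _) (fun k => (f k).2.2) hlim
  have hfin : (∏ σ : L ≃ₐ[K] L, σ y) = u' := tendsto_nhds_unique hN1 hN2
  refine ⟨y, hynorm, ?_⟩
  apply (algebraMap K L).injective
  rw [Algebra.norm_eq_prod_automorphisms]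
  exact hfin

end UnitNorm

end Fermat.Agent.S55.H38
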