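/-
Program C (S55), package C3: the Frobenius of an unramified extension with its exponent
identified, and its uniqueness.  Abstract normed-field form (same setting as `Unram.lean`).
helper38.  Mathlib only (+ `Unram.lean`).
-/
import Mathlib
import Fermat.Agent.S55.H38.Unram

set_option autoImplicit false
set_option linter.unusedSectionVars false
set_option linter.style.haveILetI false

open scoped Pointwise

namespace Fermat.Agent.S55.H38

section FrobCard

variable {K L : Type*} [Field K] [NormedField L] [IsUltrametricDist L] [Algebra K L]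
  [FiniteDimensional K L] [IsGalois K L]

/-- The residue field of the fixed ring of the unit ball is counted by any residue system
`r : K → R` of `K` (surjective on integral elements, with fibres the residue classes). -/
theorem card_fixed_quotient [IsInvariantSubring (L ≃ₐ[K] L) (ball L)]
    {R : Type*} (r : K → R)
    (h1 : ∀ c : R, ∃ a : K, ‖algebraMap K L a‖ ≤ 1 ∧ r a = c)
    (h2 : ∀ a b : K, ‖algebraMap K L a‖ ≤ 1 → ‖algebraMap K L b‖ ≤ 1 →
      (r a = r b ↔ ‖algebraMap K L a - algebraMap K L b‖ < 1)) :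
    Nat.card (FixedPoints.subring (ball L) (L ≃ₐ[K] L) ⧸
      (openIdeal L).under (FixedPoints.subring (ball L) (L ≃ₐ[K] L))) = Nat.card R := by
  classical
  choose rep hrep1 hrep2 using h1
  have hfixmem : ∀ a : K, ∀ ha : ‖algebraMap K L a‖ ≤ 1,
      (⟨algebraMap K L a, ha⟩ : ball L) ∈ FixedPoints.subring (ball L) (L ≃ₐ[K] L) := by
    intro a ha g
    apply Subtype.ext
    show g (algebraMap K L a) = algebraMap K L a
    exact g.commutes a
  let g : R → FixedPoints.subring (ball L) (L ≃ₐ[K] L) ⧸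
      (openIdeal L).under (FixedPoints.subring (ball L) (L ≃ₐ[K] L)) :=
    fun c => Ideal.Quotient.mk _ ⟨⟨algebraMap K L (rep c), hrep1 c⟩, hfixmem _ (hrep1 c)⟩
  have hg : Function.Bijective g := by
    constructor
    · intro c c' hcc
      have h3 := (Ideal.Quotient.eq).mp hcc
      rw [Ideal.mem_comap] at h3
      have h4 : ‖algebraMap K L (rep c) - algebraMap K L (rep c')‖ < 1 := h3
      have h5 := (h2 _ _ (hrep1 c) (hrep1 c')).mpr h4
      rw [hrep2, hrep2] at h5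
      exact h5
    · intro x
      obtain ⟨⟨⟨y, hy⟩, hyfix⟩, rfl⟩ := Ideal.Quotient.mk_surjective x
      have hyfix' : ∀ σ : L ≃ₐ[K] L, σ y = y := fun σ => congrArg Subtype.val (hyfix σ)
      obtain ⟨a, rfl⟩ := exists_algebraMap_of_fixed y hyfix'
      refine ⟨r a, ?_⟩
      apply (Ideal.Quotient.eq).mpr
      rw [Ideal.mem_comap]
      show ‖algebraMap K L (rep (r a)) - algebraMap K L a‖ < 1
      exact (h2 _ _ (hrep1 (r a)) hy).mp (hrep2 (r a))
  exact (Nat.card_eq_of_bijective g hg).symm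

/-- (U3') The Frobenius of an unramified Galois extension: it exists with exponent the
cardinality of the residue field of `K` (given by any residue system `r : K → R`), it is
unique, and it generates the Galois group. -/
theorem exists_unique_frobenius
    (hiso : ∀ (σ : L ≃ₐ[K] L) (x : L), ‖σ x‖ = ‖x‖)
    (hres : ∃ s : Finset L, ∀ x : L, ‖x‖ ≤ 1 → ∃ y ∈ s, ‖x - y‖ < 1)
    (hunr : ∃ ϖ : K, ϖ ≠ 0 ∧ ‖algebraMap K L ϖ‖ < 1 ∧
      ∀ x : L, x ≠ 0 → ∃ n : ℤ, ‖x‖ = ‖algebraMap K L ϖ‖ ^ n)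
    {R : Type*} (r : K → R)
    (h1 : ∀ c : R, ∃ a : K, ‖algebraMap K L a‖ ≤ 1 ∧ r a = c)
    (h2 : ∀ a b : K, ‖algebraMap K L a‖ ≤ 1 → ‖algebraMap K L b‖ ≤ 1 →
      (r a = r b ↔ ‖algebraMap K L a - algebraMap K L b‖ < 1)) :
    ∃ φ : L ≃ₐ[K] L, (∀ x : L, ‖x‖ ≤ 1 → ‖φ x - x ^ Nat.card R‖ < 1) ∧
      (∀ ψ : L ≃ₐ[K] L, (∀ x : L, ‖x‖ ≤ 1 → ‖ψ x - x ^ Nat.card R‖ < 1) → ψ = φ) ∧
      ∀ σ : L ≃ₐ[K] L, σ ∈ Subgroup.zpowers φ := by
  haveI := ball_invariant (L := L) (L ≃ₐ[K] L) (fun g x => hiso g x)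
  haveI := finite_quotient L hres
  haveI : Algebra.IsInvariant (FixedPoints.subring (ball L) (L ≃ₐ[K] L)) (ball L) (L ≃ₐ[K] L) :=
    ⟨fun b hb => ⟨⟨b, hb⟩, rfl⟩⟩
  obtain ⟨φ, hφ, hgen⟩ := exists_frobenius (L ≃ₐ[K] L)
    ((openIdeal L).under (FixedPoints.subring (ball L) (L ≃ₐ[K] L))) (openIdeal L)
    (smul_openIdeal (L ≃ₐ[K] L) (fun g x => hiso g x))
    (ball_inertia_trivial hiso hres hunr)
  rw [card_fixed_quotient r h1 h2] at hφ
  have hφ' : ∀ x : L, ‖x‖ ≤ 1 → ‖φ x - x ^ Nat.card R‖ < 1 := fun x hx => hφ ⟨x, hx⟩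
  refine ⟨φ, hφ', ?_, hgen⟩
  intro ψ hψ
  have key : φ⁻¹ * ψ = 1 := by
    apply eq_one_of_residue_trivial hiso hres hunr
    intro x hx
    have e1 : (φ⁻¹ * ψ) x - x = φ⁻¹ (ψ x - φ x) := by
      rw [AlgEquiv.mul_apply, map_sub]
      have : φ⁻¹ (φ x) = x := φ.symm_apply_apply x
      rw [this]
    rw [e1, hiso]
    have e2 : ψ x - φ x = (ψ x - x ^ Nat.card R) - (φ x - x ^ Nat.card R) := by ring
    rw [e2]
    exact (norm_sub_le_max' _ _).trans_lt (max_lt (hψ x hx) (hφ' x hx))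
  have : ψ = φ * (φ⁻¹ * ψ) := by group
  rw [this, key, mul_one]

end FrobCard

end Fermat.Agent.S55.H38
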