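/-
Program C (S55), package C3 (local fields in helper66's `PadicAlgCl q` model):
consequences of the abstract unramified package `Unram.lean` / `FrobCard.lean`.

* `leafFrob : H66.LeafFrob q` (unconditional): an unramified Galois extension has a unique
  Frobenius, and it generates the Galois group;
* `isCyclic_of_isUnram`: an unramified Galois extension is cyclic;
* `unitNorm_of_isGalois`: the norm is surjective on units of an unramified Galois extension.

helper38.
-/
import Mathlib
import Fermat.Agent.S55.H38.FrobCard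
import Fermat.Agent.S55.H66.LocalBridge
import Fermat.Agent.S55.H53.UnramUnique
import Fermat.Agent.S55.H31.UnramNorm

set_option autoImplicit false
set_option linter.unusedSectionVars false
set_option linter.style.haveILetI false
set_option maxHeartbeats 400000

namespace Fermat.Agent.S55.H38

open Fermat.Agent.S55.H66

variable (q : ℕ) [Fact q.Prime]

section Reps

variable (E : Type) [Field E] [Algebra E (PadicAlgCl q)]

/-- A finite residue field gives a finite system of representatives of the unit ball modulo
the open unit ball. -/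
theorem exists_residue_reps [Finite (IsLocalRing.ResidueField (intRing q E))] :
    ∃ s : Finset E, ∀ x : E, nrm q x ≤ 1 → ∃ y ∈ s, nrm q (x - y) < 1 := by
  classical
  choose rep hrep using (IsLocalRing.residue_surjective (R := intRing q E))
  have hfin : (Set.range (fun c => ((rep c : intRing q E) : E))).Finite := Set.finite_range _
  refine ⟨hfin.toFinset, fun x hx => ?_⟩
  have hxm : x ∈ intRing q E := (H66.mem_intRing_iff q E x).mpr hx
  refine ⟨((rep (IsLocalRing.residue (intRing q E) ⟨x, hxm⟩) : intRing q E) : E),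
    hfin.mem_toFinset.mpr ⟨_, rfl⟩, ?_⟩
  have h0 : IsLocalRing.residue (intRing q E)
      (⟨x, hxm⟩ - rep (IsLocalRing.residue (intRing q E) ⟨x, hxm⟩)) = 0 := by
    rw [map_sub, hrep, sub_self]
  have h1 := (H53.residue_eq_zero_iff q E _).mp h0
  rw [AddSubgroupClass.coe_sub] at h1
  exact h1

/-- The residue map of `E`, extended by zero outside the valuation ring. -/
noncomputable def resMap : E → IsLocalRing.ResidueField (intRing q E) := by
  classical
  exact fun a => if h : a ∈ intRing q E then IsLocalRing.residue (intRing q E) ⟨a, h⟩ else 0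

theorem resMap_of_mem {a : E} (h : a ∈ intRing q E) :
    resMap q E a = IsLocalRing.residue (intRing q E) ⟨a, h⟩ := by
  classical
  unfold resMap
  rw [dif_pos h]

theorem resMap_surj (c : IsLocalRing.ResidueField (intRing q E)) :
    ∃ a : E, nrm q a ≤ 1 ∧ resMap q E a = c := by
  obtain ⟨b, rfl⟩ := IsLocalRing.residue_surjective c
  exact ⟨(b : E), (H66.mem_intRing_iff q E _).mp b.2, resMap_of_mem q E b.2⟩

theorem resMap_eq_iff {a b : E} (ha : nrm q a ≤ 1) (hb : nrm q b ≤ 1) :
    resMap q E a = resMap q E b ↔ nrm q (a - b) < 1 := by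
  have ha' : a ∈ intRing q E := (H66.mem_intRing_iff q E a).mpr ha
  have hb' : b ∈ intRing q E := (H66.mem_intRing_iff q E b).mpr hb
  rw [resMap_of_mem q E ha', resMap_of_mem q E hb', ← sub_eq_zero, ← map_sub]
  exact H53.residue_eq_zero_iff q E (⟨a, ha'⟩ - ⟨b, hb'⟩)

end Reps

section Leaves

variable (F : Type) [Field F] [Algebra ℚ_[q] F] [Algebra F (PadicAlgCl q)]
  [IsScalarTower ℚ_[q] F (PadicAlgCl q)] [FiniteDimensional ℚ_[q] F]
  (L : IntermediateField F (PadicAlgCl q)) [FiniteDimensional F L]

/-- Hypothesis `hiso` of the abstract package. -/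
theorem hiso_model (σ : L ≃ₐ[F] L) (x : L) : ‖σ x‖ = ‖x‖ :=
  H31.norm_algEquiv q F L σ x

/-- Hypothesis `hres` of the abstract package. -/
theorem hres_model : ∃ s : Finset L, ∀ x : L, ‖x‖ ≤ 1 → ∃ y ∈ s, ‖x - y‖ < 1 := by
  haveI : Finite (IsLocalRing.ResidueField (intRing q L)) := H66.leafResFinite q L
  exact exists_residue_reps q L

/-- Hypothesis `hunr` of the abstract package. -/
theorem hunr_model (hun : IsUnram q F L) :
    ∃ ϖ : F, ϖ ≠ 0 ∧ ‖algebraMap F L ϖ‖ < 1 ∧
      ∀ x : L, x ≠ 0 → ∃ n : ℤ, ‖x‖ = ‖algebraMap F L ϖ‖ ^ n := by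
  obtain ⟨π, hπ0, hπ1, hπ⟩ := H66.leafUnif q F
  refine ⟨π, hπ0, hπ1, fun x hx => ?_⟩
  obtain ⟨y, hy⟩ := hun x
  have hy0 : y ≠ 0 := by
    rintro rfl
    have h0 : nrm q (0 : F) = 0 := by simp [nrm]
    rw [h0] at hy
    have hx' : ‖x‖ = 0 := hy
    exact hx (norm_eq_zero.mp hx')
  obtain ⟨n, hn⟩ := hπ y hy0
  exact ⟨n, hy.trans hn⟩

variable [IsGalois F L]

/-- An unramified Galois extension is cyclic. -/
theorem isCyclic_of_isUnram (hun : IsUnram q F L) : IsCyclic (L ≃ₐ[F] L) :=
  isCyclic_of_unramified (hiso_model q F L) (hres_model q F L) (hunr_model q F L hun)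

/-- The norm is surjective on the units of an unramified Galois extension. -/
theorem unitNorm_of_isGalois (hun : IsUnram q F L) (u : F) (hu : nrm q u = 1) :
    ∃ v : L, nrm q v = 1 ∧ Algebra.norm F v = u := by
  haveI : ProperSpace L := FiniteDimensional.proper ℚ_[q] L
  haveI : CompleteSpace L := inferInstance
  exact unit_norm_surjective (hiso_model q F L) (hres_model q F L) (hunr_model q F L hun) u hu

end Leaves

/-- C3 leaf V2 (`H66.InvSpec`), unconditionally: an unramified Galois extension has a unique
Frobenius, and it generates the Galois group. -/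
theorem leafFrob : LeafFrob q := by
  intro F _ _ _ _ _ L _ _ hun
  obtain ⟨φ, h1, h2, h3⟩ := exists_unique_frobenius (hiso_model q F L) (hres_model q F L)
    (hunr_model q F L hun) (resMap q F) (resMap_surj q F)
    (fun a b ha hb => by
      have := resMap_eq_iff q F (a := a) (b := b) ha hb
      rw [this]
      have e : algebraMap F L a - algebraMap F L b = algebraMap F L (a - b) := (map_sub _ _ _).symm
      rw [e]
      exact Iff.rfl)
  exact ⟨φ, h1, h2, h3⟩

end Fermat.Agent.S55.H38
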